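import Fermat.Agent.RedTorsion.Series
import Fermat.Agent.EichlerShimura.HeckeNorm

/-!
# Reduced ratios of series: `f = c y / d` with primitive `y`, `d` has reduction `ȳ / d̄`

The reduction is unique up to constants and commutes with Galois, `q ↦ q ^ l` and twists.
-/

set_option autoImplicit false

noncomputable section

open IsLocalRing ModularCurve
open Fermat.Agent.RedTorsion

namespace Fermat.Agent.DeligneSerre.Curve

variable {L : Type*} [Field L] (A : ValuationSubring L)

theorem serRed_eq_coeffMap (z : serInt A) (y : LaurentSeries A)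
    (h : (z : LaurentSeries L) = coeffMap A.subtype y) :
    serRed A z = coeffMap (residue A) y := by
  refine (congrArg (serRed A) (Subtype.ext h : z = ⟨_, h ▸ z.2⟩)).trans ?_
  exact serRed_coeffMap y _

/-- `r` is a reduction of `f`. -/
def HasRed (f : LaurentSeries L) (r : LaurentSeries (ResidueField A)) : Prop :=
  ∃ (y d : serInt A) (c : L), c ≠ 0 ∧ serRed A y ≠ 0 ∧ serRed A d ≠ 0 ∧
    f * (d : LaurentSeries L) = algebraMap L (LaurentSeries L) c * (y : LaurentSeries L) ∧
    r = serRed A y / serRed A d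

variable {A} {f g : LaurentSeries L} {r s : LaurentSeries (ResidueField A)}

theorem HasRed.ne_zero (h : HasRed A f r) : r ≠ 0 := by
  obtain ⟨y, d, c, -, hy, hd, -, rfl⟩ := h
  exact div_ne_zero hy hd

theorem HasRed.one : HasRed A (1 : LaurentSeries L) 1 :=
  ⟨1, 1, 1, one_ne_zero, by simp, by simp, by simp, by simp⟩

theorem HasRed.mul (hf : HasRed A f r) (hg : HasRed A g s) : HasRed A (f * g) (r * s) := by
  obtain ⟨y, d, c, hc, hy, hd, he, rfl⟩ := hf
  obtain ⟨y', d', c', hc', hy', hd', he', rfl⟩ := hg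
  refine ⟨y * y', d * d', c * c', mul_ne_zero hc hc', by simp [hy, hy'], by simp [hd, hd'], ?_,
    by rw [map_mul, map_mul, div_mul_div_comm]⟩
  rw [Subring.coe_mul, Subring.coe_mul, map_mul, mul_mul_mul_comm, he, he', mul_mul_mul_comm]

theorem HasRed.inv (hf : HasRed A f r) : HasRed A f⁻¹ r⁻¹ := by
  obtain ⟨y, d, c, hc, hy, hd, he, rfl⟩ := hf
  refine ⟨d, y, c⁻¹, inv_ne_zero hc, hd, hy, ?_, inv_div _ _⟩
  have hd0 : (d : LaurentSeries L) ≠ 0 := fun h => hd (by
    rw [show d = 0 from Subtype.ext h, map_zero])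
  have hy0 : (y : LaurentSeries L) ≠ 0 := fun h => hy (by
    rw [show y = 0 from Subtype.ext h, map_zero])
  have hc0 : algebraMap L (LaurentSeries L) c ≠ 0 := (map_ne_zero _).mpr hc
  rw [eq_div_iff hd0 |>.mpr he, map_inv₀]
  field_simp

theorem HasRed.pow (hf : HasRed A f r) (n : ℕ) : HasRed A (f ^ n) (r ^ n) := by
  induction n with
  | zero => simpa using HasRed.one
  | succ n ih => rw [pow_succ, pow_succ]; exact ih.mul hf

theorem HasRed.prod_const {ι : Type*} (t : Finset ι) {F : ι → LaurentSeries L}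
    (h : ∀ i ∈ t, HasRed A (F i) r) : HasRed A (∏ i ∈ t, F i) (r ^ t.card) := by
  classical
  induction t using Finset.induction with
  | empty => simpa using HasRed.one
  | insert i t hi ih =>
    rw [Finset.prod_insert hi, Finset.card_insert_of_notMem hi, pow_succ']
    exact (h i (Finset.mem_insert_self i t)).mul
      (ih fun j hj => h j (Finset.mem_insert_of_mem hj))

/-- The reduction is unique up to constants. -/
theorem HasRed.unique (hf : HasRed A f r) (hg : HasRed A f s) :
    ∃ u : ResidueField A, u ≠ 0 ∧ s = algebraMap (ResidueField A) _ u * r := by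
  obtain ⟨y, d, c, hc, hy, hd, he, rfl⟩ := hf
  obtain ⟨y', d', c', hc', hy', hd', he', rfl⟩ := hg
  set Y : serInt A := y * d' with hY
  set Y' : serInt A := y' * d with hY'
  have hrel : (Y' : LaurentSeries L) = algebraMap L (LaurentSeries L) (c / c') * Y := by
    have hc0 : algebraMap L (LaurentSeries L) c' ≠ 0 := (map_ne_zero _).mpr hc'
    rw [hY, hY', Subring.coe_mul, Subring.coe_mul, map_div₀]
    field_simp
    linear_combination (d' : LaurentSeries L) * he - (d : LaurentSeries L) * he'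
  have hYr : serRed A Y ≠ 0 := by simp [hY, hy, hd']
  obtain ⟨k, hk⟩ : ∃ k, (serRed A Y).coeff k ≠ 0 := by
    by_contra! h
    exact hYr (HahnSeries.ext (funext h))
  rw [coeff_serRed, Ne, residue_eq_zero_iff, mem_maximalIdeal, mem_nonunits_iff, not_not] at hk
  obtain ⟨v, hv⟩ := hk
  have hmem : c / c' ∈ A := by
    have h1 : Y'.1.coeff k = c / c' * Y.1.coeff k :=
      (congrArg (fun z => HahnSeries.coeff z k) hrel).trans (coeff_algebraMap_mul _ _ _)
    have h3 : Y.1.coeff k * (((v⁻¹ : Aˣ) : A) : L) = 1 :=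
      calc Y.1.coeff k * (((v⁻¹ : Aˣ) : A) : L)
          = ((v : A) : L) * (((v⁻¹ : Aˣ) : A) : L) := by rw [hv]
        _ = 1 := congrArg Subtype.val v.mul_inv
    have h2 : c / c' = Y'.1.coeff k * (((v⁻¹ : Aˣ) : A) : L) := by
      rw [h1, mul_assoc, h3, mul_one]
    rw [h2]
    exact mul_mem (mem_serInt.mp Y'.2 k) (Subtype.coe_prop _)
  have hred : serRed A Y' = algebraMap (ResidueField A) _ (residue A ⟨c / c', hmem⟩) * serRed A Y := by
    rw [← serRed_algebraMap hmem, ← map_mul]
    exact congrArg _ (Subtype.ext hrel)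
  refine ⟨residue A ⟨c / c', hmem⟩, fun h0 => ?_, ?_⟩
  · rw [h0, map_zero, zero_mul, hY', map_mul] at hred
    exact mul_ne_zero hy' hd hred
  · rw [hY, hY', map_mul, map_mul] at hred
    field_simp
    linear_combination hred

/-- Images of reductions. -/
theorem HasRed.map {Φ : LaurentSeries L →+* LaurentSeries L}
    {φ : LaurentSeries (ResidueField A) →+* LaurentSeries (ResidueField A)}
    (hΦ : ∀ y : serInt A, ∃ z : serInt A, (z : LaurentSeries L) = Φ y ∧
      serRed A z = φ (serRed A y))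
    (hc : ∀ c : L, ∃ c' : L, Φ (algebraMap L _ c) = algebraMap L _ c')
    (hf : HasRed A f r) : HasRed A (Φ f) (φ r) := by
  obtain ⟨y, d, c, hc0, hy, hd, he, rfl⟩ := hf
  obtain ⟨y', hy1, hy2⟩ := hΦ y
  obtain ⟨d', hd1, hd2⟩ := hΦ d
  obtain ⟨c', hc'⟩ := hc c
  refine ⟨y', d', c', fun h0 => ?_, ?_, ?_, ?_, by rw [map_div₀, hy2, hd2]⟩
  · rw [h0, map_zero] at hc'
    exact (map_ne_zero Φ).mpr ((map_ne_zero _).mpr hc0) hc'
  · rw [hy2]; exact (map_ne_zero φ).mpr hy
  · rw [hd2]; exact (map_ne_zero φ).mpr hd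
  · rw [hy1, hd1, ← map_mul, he, map_mul, hc']

/-- An endomorphism of the coefficients compatible with one of the residue field. -/
theorem HasRed.coeffMap {σ : L →+* L} {φ : ResidueField A →+* ResidueField A}
    (hσ : ∀ x : A, ∃ y : A, (y : L) = σ x ∧ residue A y = φ (residue A x))
    (hf : HasRed A f r) :
    HasRed A (ModularCurve.coeffMap σ f) (ModularCurve.coeffMap φ r) := by
  refine hf.map ?_ fun c => ⟨σ c, coeffMap_algebraMap σ c⟩
  intro y
  choose τ hτ hτ' using hσ
  let τhom : A →+* A := (σ.comp A.subtype).codRestrict A fun x => (hτ x) ▸ (τ x).2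
  have hτhom : ∀ x, τhom x = τ x := fun x => Subtype.ext (hτ x).symm
  obtain ⟨_, y, rfl⟩ := y
  have he : ModularCurve.coeffMap A.subtype (ModularCurve.coeffMap τhom y) =
      ModularCurve.coeffMap σ (ModularCurve.coeffMap A.subtype y) := by
    rw [coeffMap_coeffMap, coeffMap_coeffMap]
    exact coeffMap_congr (RingHom.ext fun _ => rfl) _
  refine ⟨⟨_, _, he⟩, rfl, ?_⟩
  rw [serRed_eq_coeffMap A _ (ModularCurve.coeffMap τhom y) he.symm,
    serRed_eq_coeffMap A _ y rfl, coeffMap_coeffMap, coeffMap_coeffMap]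
  exact coeffMap_congr (RingHom.ext fun x => by
    simp only [RingHom.comp_apply, hτhom, hτ']) _

/-- `q ↦ q ^ l`. -/
theorem HasRed.qExpand (l : ℕ) [NeZero l] (hf : HasRed A f r) :
    HasRed A (ModularCurve.qExpand L l f) (ModularCurve.qExpand (ResidueField A) l r) := by
  refine hf.map ?_ fun c => ⟨c, ?_⟩
  · rintro ⟨_, y, rfl⟩
    refine ⟨⟨_, ModularCurve.qExpand A l y, rfl⟩, coeffMap_qExpand _ l y, ?_⟩
    rw [serRed_eq_coeffMap A _ (ModularCurve.qExpand A l y) rfl, serRed_eq_coeffMap A _ y rfl,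
      coeffMap_qExpand]
  · rw [algebraMap_laurentSeries_eq_single, qExpand_single, mul_zero]

end Fermat.Agent.DeligneSerre.Curve

namespace Fermat.Agent.DeligneSerre.Curve

local notation "Qb" => AlgebraicClosure ℚ

variable {A : ValuationSubring Qb} {f : LaurentSeries Qb}
  {r : LaurentSeries (IsLocalRing.ResidueField A)}

/-- Twists by roots of unity of order the residue characteristic. -/
theorem HasRed.twist {l : ℕ} [NeZero l] [CharP (ResidueField A) l] (hl : l.Prime) (u : Qbˣ)
    (hu : u ^ l = 1) (hf : HasRed A f r) : HasRed A (ModFun.twist u f) r := by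
  refine hf.map (φ := RingHom.id _) ?_ fun c => ⟨c, ?_⟩
  · rintro ⟨_, y, rfl⟩
    obtain ⟨z, hz, hz'⟩ := EichlerShimura.exists_twist_lift (residue A) hl u hu y
    refine ⟨⟨_, z, rfl⟩, hz, ?_⟩
    rw [serRed_eq_coeffMap A _ z rfl, serRed_eq_coeffMap A _ y rfl]
    exact hz'
  · ext n
    rw [ModFun.coeff_twist, algebraMap_laurentSeries_eq_single]
    rcases eq_or_ne n 0 with rfl | hn
    · simp
    · simp [HahnSeries.coeff_single_of_ne hn]

end Fermat.Agent.DeligneSerre.Curve

end
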