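import Fermat.Agent.DeligneSerre.Geom.GaloisCoord
import Fermat.Agent.DeligneSerre.Geom.GaloisRed
import Fermat.Agent.Arith.RootsOfUnity

/-!
# The Galois modules of `±Γ₁(M)` from the reduction and the operators

`galoisModelStep : GaloisModelStep`: unramifiedness and the Eichler–Shimura relation.
-/

set_option autoImplicit false

noncomputable section

open CongruenceSubgroup ModularCurve AlgebraicCurve IsLocalRing
open Fermat.Agent.Arith
open scoped MatrixGroups Matrix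

namespace Fermat.Agent.DeligneSerre.Curve

local notation "Qb" => AlgebraicClosure ℚ

variable {M : ℕ} [NeZero M] [GoodLevel M] {ℓ : ℕ} [NeZero ℓ] {p : ℕ} {A : ValuationSubring Qb}

theorem hasRed_of_primFrac {f : LaurentSeries Qb} {y d : RedTorsion.serInt A}
    (h : PrimFrac M A f y d) :
    HasRed A f (RedTorsion.serRed A y / RedTorsion.serRed A d) := by
  obtain ⟨-, -, hy, hd, c, hc, he⟩ := h
  exact ⟨y, d, c, hc, hy, hd, he, rfl⟩

theorem exists_hasRed (hR : ReductionProperty M) (hp : p.Prime) (hpM : ¬ p ∣ M)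
    (hA : A.LiesOverPrime p) {x : F1Q M} (hx : x ≠ 0) :
    ∃ r, HasRed A (x : LaurentSeries Qb) r := by
  obtain ⟨y, d, h⟩ := (hR p hp hpM A hA).1 x hx
  exact ⟨_, hasRed_of_primFrac h⟩

theorem coord_eq_zero_of_hasRed_const (hR : ReductionProperty M) (hp : p.Prime) (hpM : ¬ p ∣ M)
    (hA : A.LiesOverPrime p) (hℓ : ℓ.Prime) (hℓp : ℓ ≠ p) (f : Div1 M ℓ) {u : ResidueField A}
    (h : HasRed A ((fn1 f) : LaurentSeries Qb) (algebraMap _ _ u)) : coord f = 0 := by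
  obtain ⟨y, d, hyd⟩ := (hR p hp hpM A hA).1 (fn1 f) (Units.ne_zero _)
  obtain ⟨v, -, hv⟩ := h.unique (hasRed_of_primFrac hyd)
  obtain ⟨⟨a, ha⟩, hau⟩ := residue_surjective (v * u)
  obtain ⟨b, hb⟩ := IsAlgClosed.exists_pow_nat_eq a hℓ.pos
  have hbA : b ∈ A := by
    refine (A.valuation_le_one_iff b).mp ((pow_le_one_iff hℓ.ne_zero).mp ?_)
    rw [← map_pow, hb]
    exact (A.valuation_le_one_iff a).mpr ha
  refine coord_of_mem_powGrp ((hR p hp hpM A hA).2 ℓ hℓ hℓp f y d hyd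
    ⟨algebraMap _ _ (residue A ⟨b, hbA⟩), Subfield.subset_closure ?_, ?_⟩)
  · exact ⟨⟨_, RedTorsion.algebraMap_mem_serInt hbA⟩, (F1Q M).algebraMap_mem b,
      RedTorsion.serRed_algebraMap hbA⟩
  · rw [← map_pow, ← map_pow, show (⟨b, hbA⟩ : A) ^ ℓ = ⟨a, ha⟩ from Subtype.ext hb, hau, map_mul,
      ← hv, mul_div_cancel₀ _ hyd.2.2.2.1]

theorem galRep_inertia (hR : ReductionProperty M) (hp : p.Prime) (hpM : ¬ p ∣ M)
    (hA : A.LiesOverPrime p) (hℓ : ℓ.Prime) (hℓp : ℓ ≠ p) {σ : GQ}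
    (hσ : σ ∈ A.inertiaSubgroupIn ℚ) : galRep M ℓ σ = 1 := by
  obtain ⟨hσA, hσ'⟩ := mem_inertia_iff_forall_mem.mp hσ
  refine matrix_ext_coord fun f => ?_
  rw [galRep_mulVec_coord, Matrix.one_mulVec]
  obtain ⟨r, hr⟩ := exists_hasRed hR hp hpM hA (x := (fn1 f)) (Units.ne_zero _)
  have hr' : HasRed A (coeffMap (σ : Qb →+* Qb) ((fn1 f) : LaurentSeries Qb)) r := by
    have := hr.coeffMap (σ := (σ : Qb →+* Qb)) (φ := RingHom.id _) fun x =>
      ⟨⟨σ x, map_mem_of_mem_decomposition hσA x.2⟩, rfl, residue_eq_iff.mpr (hσ' x x.2)⟩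
    rwa [coeffMap_id] at this
  have h := coord_eq_zero_of_hasRed_const hR hp hpM hA hℓ hℓp (galDiv σ f * f⁻¹) (u := 1) (by
    have h1 := hr'.mul hr.inv
    rw [mul_inv_cancel₀ hr.ne_zero] at h1
    rw [map_one]
    simpa [fn1, fn1_galDiv, Units.val_inv_eq_inv_val, galDiv] using h1)
  rwa [coord_mul, coord_inv, ← sub_eq_add_neg, sub_eq_zero] at h

set_option maxHeartbeats 1000000 in
theorem galRep_frobenius (hR : ReductionProperty M) [Fact p.Prime] (hpM : ¬ p ∣ M)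
    (hA : A.LiesOverPrime p) (hℓ : ℓ.Prime) (hℓp : ℓ ≠ p) {σ : GQ} (hσ : A.IsFrobeniusAt σ p)
    {D : (ZMod M)ˣ → (F1Q M ≃ₐ[Qb] F1Q M)} (hD : IsDiamondFamily M D) {T : F1Q M →* F1Q M}
    (hT : IsHeckeOnFun M p (D (primeUnit M p Fact.out hpM)) T) :
    galRep M ℓ σ * galRep M ℓ σ -
        opMod (.inl ⟨p, (Fact.out : p.Prime), hpM⟩) * galRep M ℓ σ +
      (p : ZMod ℓ) • opMod (.inr (primeUnit M p Fact.out hpM)) = 0 := by
  have hp : p.Prime := Fact.out
  haveI : NeZero p := ⟨hp.ne_zero⟩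
  haveI := residueField_charP hA hp
  haveI : ExpChar (ResidueField A) p := ExpChar.prime hp
  set u₀ := primeUnit M p hp hpM
  obtain ⟨hσA, hσ'⟩ := isFrobeniusAt_iff_forall_mem.mp hσ
  set Fr := coeffMap (frobenius (ResidueField A) p) with hFr
  have hmap : ∀ {x : LaurentSeries Qb} {r}, HasRed A x r →
      HasRed A (coeffMap (σ : Qb →+* Qb) x) (Fr r) := fun h =>
    h.coeffMap fun x => ⟨⟨σ x, map_mem_of_mem_decomposition hσA x.2⟩, rfl, by
      rw [frobenius_def, ← map_pow]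
      exact residue_eq_iff.mpr (hσ' x x.2)⟩
  refine matrix_ext_coord fun f => ?_
  obtain ⟨fT, hfT, eT⟩ := hasMat_hecke (ℓ := ℓ) hT hpM (galDiv σ f)
  obtain ⟨fD, hfD, eD⟩ := hasMat_diamond (ℓ := ℓ) hD u₀ f
  rw [Matrix.add_mulVec, Matrix.sub_mulVec, Matrix.smul_mulVec, ← Matrix.mulVec_mulVec,
    ← Matrix.mulVec_mulVec, galRep_mulVec_coord, galRep_mulVec_coord, ← eT, ← eD,
    Matrix.zero_mulVec, Nat.cast_smul_eq_nsmul, ← coord_pow, sub_eq_add_neg, ← coord_inv,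
    ← coord_mul, ← coord_mul]
  obtain ⟨r, hr⟩ := exists_hasRed hR hp hpM hA (x := (fn1 f)) (Units.ne_zero _)
  obtain ⟨s, hs⟩ := exists_hasRed hR hp hpM hA (x := (fn1 fD)) (Units.ne_zero _)
  obtain ⟨t, ht⟩ := exists_hasRed hR hp hpM hA (x := (fn1 fT)) (Units.ne_zero _)
  obtain ⟨ζ₀, hζ₀⟩ := HasEnoughRootsOfUnity.exists_primitiveRoot Qb p
  set ζ : Qbˣ := (hζ₀.isUnit (NeZero.ne p)).unit with hζdef
  have hζ : IsPrimitiveRoot ζ p := IsPrimitiveRoot.coe_units_iff.mp (by simpa [hζdef] using hζ₀)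
  have hser := hT.2.1 ζ hζ (fn1 (galDiv σ f))
  have hDσ : ((D u₀ (fn1 (galDiv σ f)) : F1Q M) : LaurentSeries Qb) =
      coeffMap (σ : Qb →+* Qb) ((fn1 fD) : LaurentSeries Qb) := by
    rw [fn1_galDiv, hD.1, coe_arithmeticGalois_smul, hfD]
  have hqT : HasRed A (qExpand Qb p ((fn1 fT) : LaurentSeries Qb))
      (qExpand _ p (s ^ p * Fr (Fr r))) := by
    rw [hfT, hser, hDσ, map_mul, EichlerShimura.pow_eq_qExpand_frobenius p s,
      ← EichlerShimura.pow_eq_qExpand_frobenius p (Fr r)]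
    have hprod := HasRed.prod_const (r := Fr r) (Finset.univ : Finset (Fin p))
      (F := fun i : Fin p => ModFun.twist (ζ ^ (i : ℕ)) ((fn1 (galDiv σ f)) : LaurentSeries Qb))
      fun i _ => HasRed.twist hp _ (by
        rw [← pow_mul, mul_comm, pow_mul, hζ.pow_eq_one, one_pow]) (by
        rw [fn1_galDiv, coe_arithmeticGalois_smul]
        exact hmap hr)
    rw [Finset.card_univ, Fintype.card_fin] at hprod
    exact (((hmap hs).qExpand p).qExpand p).mul hprod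
  obtain ⟨v, hv0, hv⟩ := hqT.unique (ht.qExpand p)
  have hts : t = algebraMap _ _ v * (s ^ p * Fr (Fr r)) := by
    refine qExpand_injective p (hv.trans ?_)
    rw [map_mul (qExpand (ResidueField A) p) (algebraMap _ _ v), algebraMap_laurentSeries_eq_single,
      qExpand_single, mul_zero]
  refine coord_eq_zero_of_hasRed_const hR hp hpM hA hℓ hℓp _ (u := v⁻¹) ?_
  have h := ((hmap (hmap hr)).mul ht.inv).mul (hs.pow p)
  have hval : Fr (Fr r) * t⁻¹ * s ^ p = algebraMap _ _ v⁻¹ := by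
    have h1 := (hmap (hmap hr)).ne_zero
    have h2 : s ^ p ≠ 0 := pow_ne_zero p hs.ne_zero
    have h3 : algebraMap (ResidueField A) (LaurentSeries (ResidueField A)) v ≠ 0 :=
      (map_ne_zero _).mpr hv0
    rw [hts, map_inv₀]
    field_simp
  rw [hval] at h
  simpa [fn1, galDiv, Units.val_inv_eq_inv_val] using h

/-- The Galois modules from the reduction and the operators. -/
theorem galoisModelStep : GaloisModelStep := by
  intro M _ _ hR hO ℓ hℓ
  haveI : NeZero ℓ := ⟨hℓ.ne_zero⟩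
  obtain ⟨D, hD, hT⟩ := hO
  refine ⟨galRep M ℓ, galRep_finite_level M ℓ, ?_, fun p hp hpM hpl A hA => ⟨fun σ hσ =>
    galRep_inertia hR hp hpM hA hℓ (Ne.symm hpl) hσ, fun σ hσ => ?_⟩⟩
  · rintro (⟨p, hp, hpM⟩ | u) g
    · haveI : Fact p.Prime := ⟨hp⟩
      obtain ⟨T, hT'⟩ := hT p hp hpM
      exact (hasMat_hecke hT' hpM).commute g (hT'.1 g)
    · exact (hasMat_diamond hD u).commute g (hD.1 u g)
  · haveI : Fact p.Prime := ⟨hp⟩
    obtain ⟨T, hT'⟩ := hT p hp hpM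
    exact galRep_frobenius hR hpM hA hℓ (Ne.symm hpl) hσ hD hT'

end Fermat.Agent.DeligneSerre.Curve

end
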