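import Fermat.Agent.DeligneSerre.Geom.OpKummer

/-!
# The diamond and Hecke operators on functions exist (`OperatorsProperty`)
-/

set_option autoImplicit false
set_option linter.unusedSectionVars false

noncomputable section

open AlgebraicCurve ModularCurve
open Fermat.Agent.Arith
open Fermat.Agent.RT.GammaH (hecke diamond)

local notation "Qb" => AlgebraicClosure ℚ

namespace Fermat.Agent.DeligneSerre.Curve

variable {M : ℕ} [NeZero M] [GoodLevel M]

theorem isDiamondFamily_diaQ : IsDiamondFamily M (diaQ (M := M)) := by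
  refine ⟨fun u σ f => diaQ_galois u σ f, fun m _ u f => ?_⟩
  have hdiv : ∀ P : Place Qb (F1Q M), (m : ℤ) ∣ P.ord (diaQ u ((f : (F1Q M)ˣ) : F1Q M)) := by
    intro P
    have h := Place.ord_smul (diaQ (M := M) u) ((diaQ (M := M) u)⁻¹ • P)
      ((f : (F1Q M)ˣ) : F1Q M)
    rw [smul_inv_smul] at h
    rw [h]
    exact f.2 _
  refine ⟨⟨Units.map (diaQ (M := M) u).toRingEquiv.toMonoidHom (f : (F1Q M)ˣ), hdiv⟩, rfl, ?_⟩
  rw [kummerChar1_mk, kummerChar1_mk]
  refine rootChar1_eq_of_isRootChar1 _ ?_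
  rw [JacTorsion.coe_divGrpExt]
  show IsRootChar1 ((JacTorsion.extQ (F1 M)).emb (diaQ u ((f : (F1Q M)ˣ) : F1Q M))) _
  rw [emb_diaQ, ← JacTorsion.coe_divGrpExt]
  exact isRootChar1_diaC u (Units.ne_zero _) (JacTorsion.divGrpExt m f).2 (rootChar1_spec _)

section Hecke

variable {p : ℕ} [Fact p.Prime] (hpM : ¬ p ∣ M)

include hpM in
theorem exists_heckeC_emb (x : F1Q M) :
    ∃ y, (JacTorsion.extQ (F1 M)).emb y = heckeC M p ((JacTorsion.extQ (F1 M)).emb x) :=
  haveI : NeZero p := ⟨(Fact.out : p.Prime).ne_zero⟩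
  JacTorsion.mem_range_of_finiteOrbit <|
    ((JacTorsion.finiteOrbit_emb x).image (heckeC M p)).subset (by
      rintro _ ⟨σ, rfl⟩
      exact ⟨_, ⟨σ, rfl⟩, heckeC_gal hpM σ _⟩)

/-- `T_p` on the functions over `ℚ̄`. -/
def heckeQ : F1Q M →* F1Q M where
  toFun x := (exists_heckeC_emb hpM x).choose
  map_one' := (JacTorsion.extQ (F1 M)).emb.injective (by
    rw [(exists_heckeC_emb hpM 1).choose_spec, map_one, map_one])
  map_mul' x y := (JacTorsion.extQ (F1 M)).emb.injective (by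
    rw [(exists_heckeC_emb hpM (x * y)).choose_spec, map_mul, map_mul, map_mul,
      (exists_heckeC_emb hpM x).choose_spec, (exists_heckeC_emb hpM y).choose_spec])

theorem emb_heckeQ (x : F1Q M) :
    (JacTorsion.extQ (F1 M)).emb (heckeQ hpM x) = heckeC M p ((JacTorsion.extQ (F1 M)).emb x) :=
  (exists_heckeC_emb hpM x).choose_spec

theorem series_heckeQ [NeZero p] {ζ : Qbˣ} (hζ : IsPrimitiveRoot ζ p) (f : F1Q M) :
    qExpand Qb p ((heckeQ hpM f : F1Q M) : LaurentSeries Qb) =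
      qExpand Qb p (qExpand Qb p
        ((diaQ (primeUnit M p Fact.out hpM) f : F1Q M) : LaurentSeries Qb)) *
        ∏ i : Fin p, ModFun.twist (ζ ^ (i : ℕ)) (f : LaurentSeries Qb) := by
  refine (coeffMap JacTorsion.ιQ).injective ?_
  rw [coeffMap_qExpand, map_mul, map_prod, coeffMap_qExpand, coeffMap_qExpand,
    ← JacTorsion.coe_extQ, ← JacTorsion.coe_extQ, emb_heckeQ, emb_diaQ,
    series_heckeC hpM (hζ.map_of_injective (Units.map_injective
      (f := (JacTorsion.ιQ : Qb →* ℂ)) JacTorsion.ιQ.injective))]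
  simp only [coeffMap_twist, map_pow, ← JacTorsion.coe_extQ]

theorem heckeQ_galois (σ : GQ) (f : F1Q M) :
    heckeQ hpM (arithmeticGalois (F1 M) σ • f) = arithmeticGalois (F1 M) σ • heckeQ hpM f := by
  haveI : NeZero p := ⟨(Fact.out : p.Prime).ne_zero⟩
  obtain ⟨μ, hμ⟩ := HasEnoughRootsOfUnity.exists_primitiveRoot Qb p
  obtain ⟨ζ, rfl⟩ := hμ.isUnit (NeZero.ne p)
  rw [IsPrimitiveRoot.coe_units_iff] at hμ
  have hζ' : IsPrimitiveRoot (Units.map ((σ : Qb →+* Qb) : Qb →* Qb) ζ) p :=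
    hμ.map_of_injective (Units.map_injective (f := ((σ : Qb →+* Qb) : Qb →* Qb)) σ.injective)
  refine Subtype.ext (qExpand_injective (R := Qb) (N := p) ?_)
  rw [series_heckeQ hpM hζ' (arithmeticGalois (F1 M) σ • f), coe_arithmeticGalois_smul,
    coe_arithmeticGalois_smul, ← coeffMap_qExpand, series_heckeQ hpM hμ f, map_mul, map_prod,
    diaQ_galois, coe_arithmeticGalois_smul, coeffMap_qExpand, coeffMap_qExpand]
  simp only [coeffMap_twist, map_pow]

theorem isHeckeOnFun_heckeQ :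
    IsHeckeOnFun M p (diaQ (primeUnit M p Fact.out hpM)) (heckeQ hpM) := by
  refine ⟨fun σ f => heckeQ_galois hpM σ f, fun ζ hζ f => ?_, fun m _ f => ?_⟩
  · haveI : NeZero p := ⟨(Fact.out : p.Prime).ne_zero⟩
    exact series_heckeQ hpM hζ f
  · obtain ⟨⟨hne, hdiv⟩, hchar⟩ := heckeC_root (p := p) (Units.ne_zero _)
      (JacTorsion.divGrpExt m f).2 (rootChar1 M m (JacTorsion.divGrpExt m f)) (rootChar1_spec _)
    rw [JacTorsion.coe_divGrpExt, ← emb_heckeQ hpM] at hne hdiv hchar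
    have hne' : heckeQ hpM ((f : (F1Q M)ˣ) : F1Q M) ≠ 0 := fun h => hne (by rw [h, map_zero])
    have hdiv' : ∀ P : Place Qb (F1Q M),
        (m : ℤ) ∣ P.ord (heckeQ hpM ((f : (F1Q M)ˣ) : F1Q M)) := fun P => by
      obtain ⟨w, hw⟩ := JacTorsion.exists_place_over (JacTorsion.extQ (F1 M)) P
        (JacTorsion.residueConst_of_isFunctionField P)
      rw [← hw]
      exact hdiv w
    refine ⟨⟨Units.mk0 _ hne', hdiv'⟩, rfl, ?_⟩
    rw [kummerChar1_mk, kummerChar1_mk]
    refine rootChar1_eq_of_isRootChar1 _ ?_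
    rw [JacTorsion.coe_divGrpExt]
    exact hchar

end Hecke

/-- The diamond and Hecke operators on functions exist. -/
theorem operatorsProperty (M : ℕ) [NeZero M] [GoodLevel M] : OperatorsProperty M :=
  ⟨diaQ, isDiamondFamily_diaQ, fun p hp hpM =>
    haveI : Fact p.Prime := ⟨hp⟩
    ⟨heckeQ hpM, isHeckeOnFun_heckeQ hpM⟩⟩

end Fermat.Agent.DeligneSerre.Curve
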