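import Fermat.Agent.DeligneSerre.Interface
import Fermat.Agent.GaloisReps.HeckeGalois

/-!
# The Galois action on the Kummer group of `±Γ₁(M)` in coordinates

`galRep M ℓ` is the matrix representation; it factors through a number field and commutes with the
matrices of the operators that commute with Galois on functions.
-/

set_option autoImplicit false

noncomputable section

open CongruenceSubgroup ModularCurve AlgebraicCurve
open Fermat.Agent.Arith
open Fermat.Agent.RT.GammaH (hecke diamond)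
open scoped MatrixGroups Matrix

namespace Fermat.Agent.DeligneSerre.Curve

local notation "Qb" => AlgebraicClosure ℚ

variable (M : ℕ) [NeZero M] [GoodLevel M] (ℓ : ℕ) [NeZero ℓ]

/-- Functions on the curve with divisor divisible by `ℓ`. -/
abbrev Div1 := JacTorsion.divGrp Qb (F1Q M) ℓ

variable {M ℓ}

/-- The underlying function. -/
abbrev fn1 (f : Div1 M ℓ) : F1Q M := ((f : (F1Q M)ˣ) : F1Q M)

theorem div1_ext {f g : Div1 M ℓ} (h : fn1 f = fn1 g) : f = g :=
  Subtype.ext (Units.ext h)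

theorem gal_mem_divGrp (σ : GQ) (f : Div1 M ℓ) :
    Units.map (SemilinearAut.toRingAut (arithmeticGalois (F1 M) σ)).toMonoidHom (f : (F1Q M)ˣ) ∈
      JacTorsion.divGrp Qb (F1Q M) ℓ := fun P => by
  show (ℓ : ℤ) ∣ P.ord (arithmeticGalois (F1 M) σ • fn1 f)
  rw [← smul_inv_smul (arithmeticGalois (F1 M) σ) P, SemilinearAut.ord_smul]
  exact f.2 _

/-- Galois on functions with divisor divisible by `ℓ`. -/
def galDiv (σ : GQ) : Div1 M ℓ →* Div1 M ℓ :=
  MonoidHom.mk' (fun f => ⟨_, gal_mem_divGrp σ f⟩) fun f g =>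
    div1_ext (map_mul (SemilinearAut.toRingAut (arithmeticGalois (F1 M) σ)) _ _)

theorem fn1_galDiv (σ : GQ) (f : Div1 M ℓ) :
    (fn1 (galDiv σ f)) = arithmeticGalois (F1 M) σ • (fn1 f) := rfl

theorem galDiv_mem_powGrp (σ : GQ) {f : Div1 M ℓ} (hf : f ∈ JacTorsion.powGrp Qb (F1Q M) ℓ) :
    galDiv σ f ∈ JacTorsion.powGrp Qb (F1Q M) ℓ := by
  obtain ⟨g, hg⟩ := hf
  refine ⟨Units.map (SemilinearAut.toRingAut (arithmeticGalois (F1 M) σ)).toMonoidHom g, ?_⟩
  rw [powMonoidHom_apply] at hg ⊢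
  rw [← map_pow, hg]
  rfl

/-- The coordinates of a class. -/
def coord (f : Div1 M ℓ) : Fin (homRank M) → ZMod ℓ := fun a =>
  ((kummerChar1 M ℓ (QuotientGroup.mk f)).toAdd.1 : Additive (G1 M) →+ ZMod ℓ)
    (Additive.ofMul (homPts M a))

theorem coord_mul (f g : Div1 M ℓ) : coord (f * g) = coord f + coord g := by
  funext a
  simp only [coord, QuotientGroup.mk_mul, map_mul, toAdd_mul, Pi.add_apply]
  rfl

theorem coord_one : coord (1 : Div1 M ℓ) = 0 := by
  have h := coord_mul (1 : Div1 M ℓ) 1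
  rwa [one_mul, left_eq_add] at h

theorem coord_inv (f : Div1 M ℓ) : coord f⁻¹ = -coord f := by
  refine eq_neg_of_add_eq_zero_left ?_
  rw [← coord_mul, inv_mul_cancel, coord_one]

theorem coord_pow (f : Div1 M ℓ) (n : ℕ) : coord (f ^ n) = n • coord f := by
  induction n with
  | zero => rw [pow_zero, coord_one, zero_nsmul]
  | succ n ih => rw [pow_succ, coord_mul, ih, succ_nsmul]

theorem coord_surjective : Function.Surjective (coord (M := M) (ℓ := ℓ)) := by
  intro v
  obtain ⟨x, hx⟩ := (kummerChar1_bijective M ℓ).2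
    (Multiplicative.ofAdd ⟨ofVec v, ofVec_mem v⟩)
  obtain ⟨f, rfl⟩ := QuotientGroup.mk_surjective x
  refine ⟨f, funext fun a => ?_⟩
  rw [coord, hx]
  exact ofVec_apply v a

theorem mem_powGrp_of_coord {f : Div1 M ℓ} (hf : coord f = 0) :
    f ∈ JacTorsion.powGrp Qb (F1Q M) ℓ := by
  refine (QuotientGroup.eq_one_iff f).mp ((kummerChar1_bijective M ℓ).1 ?_)
  rw [map_one]
  refine Multiplicative.toAdd.injective (Subtype.ext ?_)
  refine eq_of_homPts (kummerChar1 M ℓ (QuotientGroup.mk f)).toAdd.2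
    (zero_mem (Gamma0.ellParHoms (pmGroup M) (ZMod ℓ))) fun a => ?_
  exact congrFun hf a

theorem coord_of_mem_powGrp {f : Div1 M ℓ} (hf : f ∈ JacTorsion.powGrp Qb (F1Q M) ℓ) :
    coord f = 0 := by
  funext a
  rw [coord, (QuotientGroup.eq_one_iff f).mpr hf, map_one]
  rfl

theorem coord_apply (f : Div1 M ℓ) (a : Fin (homRank M)) :
    coord f a = ((kummerChar1 M ℓ (QuotientGroup.mk f)).toAdd.1 : Additive (G1 M) →+ ZMod ℓ)
      (Additive.ofMul (homPts M a)) := rfl

theorem coord_galDiv_congr (σ : GQ) {f g : Div1 M ℓ} (h : coord f = coord g) :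
    coord (galDiv σ f) = coord (galDiv σ g) := by
  have h1 : coord (f * g⁻¹) = 0 := by rw [coord_mul, coord_inv, h, add_neg_cancel]
  have h2 := coord_of_mem_powGrp (galDiv_mem_powGrp σ (mem_powGrp_of_coord h1))
  rwa [map_mul, map_inv, coord_mul, coord_inv, ← sub_eq_add_neg, sub_eq_zero] at h2

attribute [local irreducible] coord

/-- The Galois action on coordinates. -/
def galVec (σ : GQ) (v : Fin (homRank M) → ZMod ℓ) : Fin (homRank M) → ZMod ℓ :=
  coord (galDiv σ (coord_surjective v).choose)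

theorem galVec_coord (σ : GQ) (f : Div1 M ℓ) : galVec σ (coord f) = coord (galDiv σ f) :=
  coord_galDiv_congr σ (coord_surjective (coord f)).choose_spec

theorem galVec_add (σ : GQ) (v w : Fin (homRank M) → ZMod ℓ) :
    galVec σ (v + w) = galVec σ v + galVec σ w := by
  obtain ⟨f, rfl⟩ := coord_surjective v
  obtain ⟨g, rfl⟩ := coord_surjective w
  rw [← coord_mul, galVec_coord, galVec_coord, galVec_coord, map_mul, coord_mul]

attribute [local irreducible] galVec

theorem galVec_smul (σ : GQ) (c : ZMod ℓ) (v : Fin (homRank M) → ZMod ℓ) :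
    galVec σ (c • v) = c • galVec σ v := by
  have h : ∀ n : ℕ, galVec σ (n • v) = n • galVec σ v := fun n =>
    map_nsmul (AddMonoidHom.mk' (galVec σ) (galVec_add σ)) n v
  rw [← ZMod.natCast_zmod_val c, Nat.cast_smul_eq_nsmul, Nat.cast_smul_eq_nsmul, h]

/-- The linear map of a Galois element. -/
def galLin (σ : GQ) : (Fin (homRank M) → ZMod ℓ) →ₗ[ZMod ℓ] (Fin (homRank M) → ZMod ℓ) where
  toFun := galVec σ
  map_add' := galVec_add σ
  map_smul' := galVec_smul σ

/-- The matrix of a Galois element. -/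
def galMat (σ : GQ) : Matrix (Fin (homRank M)) (Fin (homRank M)) (ZMod ℓ) :=
  LinearMap.toMatrix' (galLin σ)

theorem galMat_mulVec_coord (σ : GQ) (f : Div1 M ℓ) :
    galMat σ *ᵥ coord f = coord (galDiv σ f) := by
  rw [galMat, LinearMap.toMatrix'_mulVec]
  exact galVec_coord σ f

theorem matrix_ext_coord {P Q : Matrix (Fin (homRank M)) (Fin (homRank M)) (ZMod ℓ)}
    (h : ∀ f : Div1 M ℓ, P *ᵥ coord f = Q *ᵥ coord f) : P = Q := by
  refine Matrix.toLin'.injective (LinearMap.ext fun v => ?_)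
  obtain ⟨f, rfl⟩ := coord_surjective v
  rw [Matrix.toLin'_apply, Matrix.toLin'_apply, h]

variable (M ℓ) in
/-- The Galois representation on the coordinates. -/
def galRep : GQ →* Matrix (Fin (homRank M)) (Fin (homRank M)) (ZMod ℓ) where
  toFun := galMat
  map_one' := matrix_ext_coord fun f => by
    rw [galMat_mulVec_coord, Matrix.one_mulVec]
    refine congrArg coord (div1_ext ?_)
    rw [fn1_galDiv, map_one, one_smul]
  map_mul' σ τ := matrix_ext_coord fun f => by
    rw [← Matrix.mulVec_mulVec, galMat_mulVec_coord, galMat_mulVec_coord, galMat_mulVec_coord]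
    refine congrArg coord (div1_ext ?_)
    rw [fn1_galDiv, fn1_galDiv, fn1_galDiv, map_mul, mul_smul]

theorem galRep_mulVec_coord (σ : GQ) (f : Div1 M ℓ) :
    galRep M ℓ σ *ᵥ coord f = coord (galDiv σ f) := galMat_mulVec_coord σ f

variable (M ℓ) in
theorem galRep_finite_level : GaloisFactorsThroughFiniteLevel (galRep M ℓ) := by
  classical
  choose f hf using fun a : Fin (homRank M) =>
    coord_surjective (M := M) (ℓ := ℓ) (Pi.single a 1)
  choose L hL hfix using fun a : Fin (homRank M) =>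
    GaloisReps.exists_fixing_element (F1 M) (fn1 (f a)).2
  haveI : ∀ a, FiniteDimensional ℚ (L a) := hL
  refine ⟨⨆ a, L a, IntermediateField.finiteDimensional_iSup_of_finite, fun σ hσ => ?_⟩
  refine Matrix.ext fun b a => ?_
  have h : galRep M ℓ σ *ᵥ Pi.single a 1 = Pi.single a 1 := by
    rw [← hf a, galRep_mulVec_coord]
    refine congrArg coord (div1_ext (Subtype.ext ?_))
    rw [fn1_galDiv, coe_arithmeticGalois_smul]
    exact hfix a σ fun z hz => hσ z (le_iSup L a hz)
  have h' := congrFun h b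
  rw [Matrix.mulVec_single_one] at h'
  simpa [Matrix.one_apply, Pi.single_apply] using h'

/-- An operator on functions with a matrix `P`. -/
def HasMat (T : F1Q M → F1Q M) (P : Matrix (Fin (homRank M)) (Fin (homRank M)) (ZMod ℓ)) : Prop :=
  ∀ f : Div1 M ℓ, ∃ f' : Div1 M ℓ, (fn1 f') = T (fn1 f) ∧ coord f' = P *ᵥ coord f

/-- The matrix of a good operator modulo `ℓ`. -/
abbrev opMod (i : GoodOp M) : Matrix (Fin (homRank M)) (Fin (homRank M)) (ZMod ℓ) :=
  (opMat i).map (Int.cast : ℤ → ZMod ℓ)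

theorem coord_eq_mulVec (i : GoodOp M) {f f' : Div1 M ℓ}
    (h : ((kummerChar1 M ℓ (QuotientGroup.mk f')).toAdd.1 : Additive (pmGroup M) →+ ZMod ℓ) =
      goodOp (ZMod ℓ) i (kummerChar1 M ℓ (QuotientGroup.mk f)).toAdd.1) :
    coord f' = opMod i *ᵥ coord f := by
  funext b
  rw [coord_apply]
  refine (DFunLike.congr_fun h (Additive.ofMul (homPts M b))).trans ?_
  refine (goodOp_apply_homPts i (kummerChar1 M ℓ (QuotientGroup.mk f)).toAdd.2 b).trans ?_
  simp only [Matrix.mulVec, dotProduct, Matrix.map_apply, zsmul_eq_mul, coord_apply]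

theorem hasMat_diamond {D : (ZMod M)ˣ → (F1Q M ≃ₐ[Qb] F1Q M)} (hD : IsDiamondFamily M D)
    (u : (ZMod M)ˣ) : HasMat (ℓ := ℓ) (D u) (opMod (.inr u)) := fun f => by
  obtain ⟨f', h1, h2⟩ := hD.2 ℓ u f
  exact ⟨f', h1, coord_eq_mulVec (.inr u) h2⟩

theorem hasMat_hecke {p : ℕ} [Fact p.Prime] {D : F1Q M ≃ₐ[Qb] F1Q M} {T : F1Q M →* F1Q M}
    (hT : IsHeckeOnFun M p D T) (hpM : ¬ p ∣ M) :
    HasMat (ℓ := ℓ) T (opMod (.inl ⟨p, (Fact.out : p.Prime), hpM⟩)) := fun f => by
  obtain ⟨f', h1, h2⟩ := hT.2.2 ℓ f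
  exact ⟨f', h1, coord_eq_mulVec (.inl ⟨p, (Fact.out : p.Prime), hpM⟩) h2⟩

theorem HasMat.commute {T : F1Q M → F1Q M} {P : Matrix (Fin (homRank M)) (Fin (homRank M)) (ZMod ℓ)}
    (hP : HasMat T P) (σ : GQ)
    (hT : ∀ x, T (arithmeticGalois (F1 M) σ • x) = arithmeticGalois (F1 M) σ • T x) :
    Commute (galRep M ℓ σ) P := matrix_ext_coord fun f => by
  obtain ⟨f₁, h1, e1⟩ := hP f
  obtain ⟨f₂, h2, e2⟩ := hP (galDiv σ f)
  rw [← Matrix.mulVec_mulVec, ← Matrix.mulVec_mulVec, ← e1, galRep_mulVec_coord,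
    galRep_mulVec_coord, ← e2]
  refine congrArg coord (div1_ext ?_)
  rw [fn1_galDiv, h1, h2, fn1_galDiv, hT]

end Fermat.Agent.DeligneSerre.Curve

end
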