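import Fermat.Agent.DeligneSerre.Curve.Kummer

/-!
# The diamond automorphisms of the field of `±Γ₁(M)`, complex and algebraic
-/

set_option autoImplicit false
set_option linter.unusedSectionVars false

noncomputable section

open CongruenceSubgroup AlgebraicCurve ModularCurve
open UpperHalfPlane hiding I
open Fermat.Agent.ModFun (MerH HolH actMer actHol actMer_algebraMap coe_actHol)
open scoped MatrixGroups

local notation "Qb" => AlgebraicClosure ℚ

namespace Fermat.Agent.DeligneSerre.Curve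

variable {M : ℕ} [NeZero M] [GoodLevel M]

theorem dia_injective (u : (ZMod M)ˣ) : Function.Injective (dia M u) := fun a b h => by
  have := congrArg (dia M u⁻¹) h
  rwa [dia_dia, dia_dia, mul_inv_cancel, dia_one, dia_one] at this

theorem toF1C_dia_injective (u : (ZMod M)ˣ) :
    Function.Injective ((toF1C M).comp (dia M u)) :=
  fun a b h => by
  rw [AlgHom.comp_apply, AlgHom.comp_apply] at h
  exact dia_injective u (toF1C_injective (M := M) h)

/-- The diamond on the complex field, as a homomorphism. -/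
def diaCHom (u : (ZMod M)ˣ) : F1C M →ₐ[ℂ] F1C M :=
  IsFractionRing.liftAlgHom (R := ℂ) (A := Hol1 M) (K := F1C M)
    (g := (toF1C M).comp (dia M u)) (toF1C_dia_injective u)

theorem diaCHom_toF1C (u : (ZMod M)ˣ) (a : Hol1 M) :
    diaCHom u (toF1C M a) = toF1C M (dia M u a) := by
  rw [diaCHom, ← algebraMap_hol1_apply, IsFractionRing.liftAlgHom_apply]
  exact IsFractionRing.lift_algebraMap _ a

theorem diaCHom_diaCHom_inv (u : (ZMod M)ˣ) (x : F1C M) : diaCHom u (diaCHom u⁻¹ x) = x := by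
  obtain ⟨a, b, -, rfl⟩ := exists_div_eq1 x
  simp only [map_div₀, diaCHom_toF1C, dia_dia, inv_mul_cancel, dia_one]

/-- The diamond automorphism of the complex field. -/
def diaC (u : (ZMod M)ˣ) : F1C M ≃ₐ[ℂ] F1C M :=
  AlgEquiv.ofAlgHom (diaCHom u) (diaCHom u⁻¹) (AlgHom.ext (diaCHom_diaCHom_inv u))
    (AlgHom.ext fun x => by
      conv_lhs => rw [AlgHom.comp_apply]; arg 2; rw [← inv_inv u]
      exact diaCHom_diaCHom_inv u⁻¹ x)

theorem diaC_toF1C (u : (ZMod M)ˣ) (a : Hol1 M) : diaC u (toF1C M a) = toF1C M (dia M u a) :=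
  diaCHom_toF1C u a

theorem e11_diaC {g : SL(2, ℤ)} (hg : g ∈ Gamma0 M) {u : (ZMod M)ˣ}
    (hu : (g 1 1 : ZMod M) = u) (x : F1C M) :
    e11 M (diaC u x) = actMer g (e11 M x) := by
  obtain ⟨a, b, -, rfl⟩ := exists_div_eq1 x
  have key : ∀ f : Hol1 M, e11 M (diaC u (toF1C M f)) = actMer g (e11 M (toF1C M f)) := fun f => by
    rw [diaC_toF1C, e11_toF1C, e11_toF1C, actMer_algebraMap]
    exact congrArg _ (Subtype.ext (funext fun τ => (comp_gamma0_eq_dia f hg u (Or.inl hu) τ).symm))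
  simp only [map_div₀, key]

/-- The diamond moves a rational function to a rational one. -/
theorem exists_diaC_coeffEmb (u : (ZMod M)ˣ) (w : LaurentSeries ℚ) (hw : w ∈ F1 M) :
    ∃ w' ∈ F1 M,
      (diaC u ⟨coeffEmb ℂ w, coeffEmb_mem_laurentBaseChange ℂ hw⟩ : LaurentSeries ℂ) =
        coeffEmb ℂ w' := by
  induction hw using IntermediateField.adjoin_induction with
  | mem z hz =>
    rcases hz with hz | ⟨a, rfl⟩
    · refine ⟨z, full_le_F1 hz, ?_⟩
      have hc : coeffEmb ℂ z ∈ ModFun.FC M := by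
        rw [ModFun.FC, ← ModFun.laurentBaseChange_eq_fullC]
        exact coeffEmb_mem_laurentBaseChange ℂ hz
      obtain ⟨a, b, -, h⟩ := ModFun.exists_div_eq ⟨_, hc⟩
      have hx : (⟨coeffEmb ℂ z, coeffEmb_mem_laurentBaseChange ℂ (full_le_F1 hz)⟩ : F1C M) =
          toF1C M (Subalgebra.inclusion Hol_le_Hol1 a) /
            toF1C M (Subalgebra.inclusion Hol_le_Hol1 b) := by
        refine Subtype.ext ?_
        simpa [qExp1_inclusion] using congrArg Subtype.val h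
      have hd : diaC u (⟨coeffEmb ℂ z, coeffEmb_mem_laurentBaseChange ℂ (full_le_F1 hz)⟩ : F1C M) =
          ⟨coeffEmb ℂ z, coeffEmb_mem_laurentBaseChange ℂ (full_le_F1 hz)⟩ := by
        rw [hx, map_div₀, diaC_toF1C, diaC_toF1C, dia_inclusion, dia_inclusion]
      exact congrArg Subtype.val hd
    · refine ⟨uK ℚ (a * u), uK_mem_F1 _, ?_⟩
      have hx : (⟨coeffEmb ℂ (uK ℚ a), coeffEmb_mem_laurentBaseChange ℂ (uK_mem_F1 a)⟩ : F1C M) =
          toF1C M (uC a) := Subtype.ext (by rw [coe_toF1C, qExp1_uC]; exact coeffEmb_uK ℂ a)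
      rw [hx, diaC_toF1C, dia_uC, coe_toF1C, qExp1_uC, coeffEmb_uK]
  | algebraMap c =>
    refine ⟨algebraMap ℚ _ c, (F1 M).algebraMap_mem c, ?_⟩
    have e : coeffEmb ℂ (algebraMap ℚ (LaurentSeries ℚ) c) =
        algebraMap ℂ (LaurentSeries ℂ) (c : ℂ) := by
      rw [coeffEmb, algebraMap_laurentSeries_eq_single, coeffMap_single,
        algebraMap_laurentSeries_eq_single, eq_ratCast]
    have hx : (⟨coeffEmb ℂ (algebraMap ℚ (LaurentSeries ℚ) c),
        coeffEmb_mem_laurentBaseChange ℂ ((F1 M).algebraMap_mem c)⟩ : F1C M) =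
        algebraMap ℂ (F1C M) (c : ℂ) := Subtype.ext e
    rw [hx, AlgEquiv.commutes, e]
    rfl
  | add x y hx hy ihx ihy =>
    obtain ⟨x', hx', ex⟩ := ihx
    obtain ⟨y', hy', ey⟩ := ihy
    refine ⟨x' + y', add_mem hx' hy', ?_⟩
    rw [show (⟨coeffEmb ℂ (x + y), _⟩ : F1C M) =
        ⟨coeffEmb ℂ x, coeffEmb_mem_laurentBaseChange ℂ hx⟩ +
          ⟨coeffEmb ℂ y, coeffEmb_mem_laurentBaseChange ℂ hy⟩ from Subtype.ext (map_add _ x y),
      map_add, map_add, IntermediateField.coe_add, ex, ey]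
  | inv x hx ihx =>
    obtain ⟨x', hx', ex⟩ := ihx
    refine ⟨x'⁻¹, inv_mem hx', ?_⟩
    rw [show (⟨coeffEmb ℂ x⁻¹, _⟩ : F1C M) =
        (⟨coeffEmb ℂ x, coeffEmb_mem_laurentBaseChange ℂ hx⟩)⁻¹ from Subtype.ext (map_inv₀ _ x),
      map_inv₀, map_inv₀, IntermediateField.coe_inv, ex]
  | mul x y hx hy ihx ihy =>
    obtain ⟨x', hx', ex⟩ := ihx
    obtain ⟨y', hy', ey⟩ := ihy
    refine ⟨x' * y', mul_mem hx' hy', ?_⟩
    rw [show (⟨coeffEmb ℂ (x * y), _⟩ : F1C M) =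
        ⟨coeffEmb ℂ x, coeffEmb_mem_laurentBaseChange ℂ hx⟩ *
          ⟨coeffEmb ℂ y, coeffEmb_mem_laurentBaseChange ℂ hy⟩ from Subtype.ext (map_mul _ x y),
      map_mul, map_mul, IntermediateField.coe_mul, ex, ey]

/-- The diamonds commute with the automorphisms of `ℂ`. -/
theorem diaC_gal (u : (ZMod M)ˣ) (σ : ℂ ≃ₐ[ℚ] ℂ) (x : F1C M) :
    diaC u (JacTorsion.gal (F1 M) σ • x) = JacTorsion.gal (F1 M) σ • diaC u x := by
  obtain ⟨x, hx⟩ := x
  induction hx using IntermediateField.adjoin_induction with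
  | mem z hz =>
    obtain ⟨w, hw, rfl⟩ := hz
    obtain ⟨w', -, e⟩ := exists_diaC_coeffEmb u w hw
    refine Subtype.ext ?_
    rw [JacTorsion.coe_gal_smul, e, coeffMap_coeffEmb, ← e]
    exact congrArg (fun t => (diaC u t : LaurentSeries ℂ))
      (Subtype.ext (coeffMap_coeffEmb σ w))
  | algebraMap c =>
    show diaC u (JacTorsion.gal (F1 M) σ • algebraMap ℂ (F1C M) c) =
      JacTorsion.gal (F1 M) σ • diaC u (algebraMap ℂ (F1C M) c)
    rw [SemilinearAut.smul_algebraMap, AlgEquiv.commutes, AlgEquiv.commutes,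
      SemilinearAut.smul_algebraMap]
  | add a b ha hb iha ihb =>
    rw [show (⟨a + b, _⟩ : F1C M) = ⟨a, ha⟩ + ⟨b, hb⟩ from rfl]
    simp only [smul_add, map_add, iha, ihb]
  | inv a ha iha =>
    rw [show (⟨a⁻¹, _⟩ : F1C M) = (⟨a, ha⟩ : F1C M)⁻¹ from rfl]
    simp only [map_inv₀]
    rw [show JacTorsion.gal (F1 M) σ • (⟨a, ha⟩ : F1C M)⁻¹ = (JacTorsion.gal (F1 M) σ •
      (⟨a, ha⟩ : F1C M))⁻¹ from map_inv₀ (SemilinearAut.toRingAut _) _, map_inv₀, iha]
    exact (map_inv₀ (SemilinearAut.toRingAut (JacTorsion.gal (F1 M) σ)) _).symm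
  | mul a b ha hb iha ihb =>
    rw [show (⟨a * b, _⟩ : F1C M) = ⟨a, ha⟩ * ⟨b, hb⟩ from rfl]
    simp only [smul_mul', map_mul, iha, ihb]

/-- The diamond descends to `ℚ̄`. -/
theorem exists_diaC_emb (u : (ZMod M)ˣ) (x : JacTorsion.FQ (F1 M)) :
    ∃ y, (JacTorsion.extQ (F1 M)).emb y = diaC u ((JacTorsion.extQ (F1 M)).emb x) :=
  JacTorsion.mem_range_of_finiteOrbit <|
    ((JacTorsion.finiteOrbit_emb x).image (diaC u)).subset (by
      rintro _ ⟨σ, rfl⟩
      exact ⟨_, ⟨σ, rfl⟩, diaC_gal u σ _⟩)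

/-- The descended diamond. -/
def diaQFun (u : (ZMod M)ˣ) (x : JacTorsion.FQ (F1 M)) : JacTorsion.FQ (F1 M) :=
  (exists_diaC_emb u x).choose

theorem emb_diaQFun (u : (ZMod M)ˣ) (x : JacTorsion.FQ (F1 M)) :
    (JacTorsion.extQ (F1 M)).emb (diaQFun u x) = diaC u ((JacTorsion.extQ (F1 M)).emb x) :=
  (exists_diaC_emb u x).choose_spec

/-- The diamond automorphism of the field over `ℚ̄`. -/
def diaQ (u : (ZMod M)ˣ) : JacTorsion.FQ (F1 M) ≃ₐ[Qb] JacTorsion.FQ (F1 M) where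
  toFun := diaQFun u
  invFun := diaQFun u⁻¹
  left_inv x := (JacTorsion.extQ (F1 M)).emb.injective (by
    rw [emb_diaQFun, emb_diaQFun]
    exact (diaC (M := M) u).symm_apply_apply _)
  right_inv x := (JacTorsion.extQ (F1 M)).emb.injective (by
    rw [emb_diaQFun, emb_diaQFun]
    exact (diaC (M := M) u).apply_symm_apply _)
  map_mul' x y := (JacTorsion.extQ (F1 M)).emb.injective (by simp only [emb_diaQFun, map_mul])
  map_add' x y := (JacTorsion.extQ (F1 M)).emb.injective (by simp only [emb_diaQFun, map_add])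
  commutes' a := (JacTorsion.extQ (F1 M)).emb.injective (by
    show (JacTorsion.extQ (F1 M)).emb (diaQFun u _) = _
    rw [emb_diaQFun, (JacTorsion.extQ (F1 M)).emb_algebraMap, AlgEquiv.commutes])

theorem emb_diaQ (u : (ZMod M)ˣ) (x : JacTorsion.FQ (F1 M)) :
    (JacTorsion.extQ (F1 M)).emb (diaQ u x) = diaC u ((JacTorsion.extQ (F1 M)).emb x) :=
  emb_diaQFun u x

theorem diaQ_coeffEmb_fixed (u : (ZMod M)ˣ) (σ : Qb ≃ₐ[ℚ] Qb) (w : LaurentSeries ℚ)
    (hw : w ∈ F1 M) :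
    arithmeticGalois (F1 M) σ • diaQ u ⟨coeffEmb Qb w, coeffEmb_mem_laurentBaseChange Qb hw⟩ =
      diaQ u ⟨coeffEmb Qb w, coeffEmb_mem_laurentBaseChange Qb hw⟩ := by
  obtain ⟨w', hw', e⟩ := exists_diaC_coeffEmb u w hw
  have hc : ∀ v : LaurentSeries ℚ, coeffMap JacTorsion.ιQ (coeffEmb Qb v) = coeffEmb ℂ v := fun v => by
    rw [coeffEmb, coeffEmb, coeffMap_coeffMap]
    exact coeffMap_congr (RingHom.ext fun q => by simp) v
  have h : diaQ u ⟨coeffEmb Qb w, coeffEmb_mem_laurentBaseChange Qb hw⟩ =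
      ⟨coeffEmb Qb w', coeffEmb_mem_laurentBaseChange Qb hw'⟩ := by
    refine (JacTorsion.extQ (F1 M)).emb.injective ?_
    rw [emb_diaQ]
    refine Subtype.ext ?_
    rw [show (JacTorsion.extQ (F1 M)).emb ⟨coeffEmb Qb w, coeffEmb_mem_laurentBaseChange Qb hw⟩ =
      (⟨coeffEmb ℂ w, coeffEmb_mem_laurentBaseChange ℂ hw⟩ : F1C M) from Subtype.ext (hc w), e]
    exact (hc w').symm
  rw [h]
  exact Subtype.ext (coeffMap_coeffEmb σ w')

/-- The diamonds commute with the Galois action. -/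
theorem diaQ_galois (u : (ZMod M)ˣ) (σ : Qb ≃ₐ[ℚ] Qb) (x : JacTorsion.FQ (F1 M)) :
    diaQ u (arithmeticGalois (F1 M) σ • x) = arithmeticGalois (F1 M) σ • diaQ u x := by
  obtain ⟨x, hx⟩ := x
  induction hx using IntermediateField.adjoin_induction with
  | mem z hz =>
    obtain ⟨w, hw, rfl⟩ := hz
    rw [diaQ_coeffEmb_fixed u σ w hw]
    exact congrArg (diaQ u) (Subtype.ext (coeffMap_coeffEmb σ w))
  | algebraMap c =>
    show diaQ u (arithmeticGalois (F1 M) σ • algebraMap Qb (JacTorsion.FQ (F1 M)) c) =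
      arithmeticGalois (F1 M) σ • diaQ u (algebraMap Qb (JacTorsion.FQ (F1 M)) c)
    rw [SemilinearAut.smul_algebraMap, AlgEquiv.commutes, AlgEquiv.commutes,
      SemilinearAut.smul_algebraMap]
  | add a b ha hb iha ihb =>
    rw [show (⟨a + b, _⟩ : JacTorsion.FQ (F1 M)) = ⟨a, ha⟩ + ⟨b, hb⟩ from rfl]
    simp only [smul_add, map_add, iha, ihb]
  | inv a ha iha =>
    rw [show (⟨a⁻¹, _⟩ : JacTorsion.FQ (F1 M)) = (⟨a, ha⟩ : JacTorsion.FQ (F1 M))⁻¹ from rfl,
      show arithmeticGalois (F1 M) σ • (⟨a, ha⟩ : JacTorsion.FQ (F1 M))⁻¹ =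
        (arithmeticGalois (F1 M) σ • (⟨a, ha⟩ : JacTorsion.FQ (F1 M)))⁻¹ from
        map_inv₀ (SemilinearAut.toRingAut _) _, map_inv₀, iha, map_inv₀]
    exact (map_inv₀ (SemilinearAut.toRingAut (arithmeticGalois (F1 M) σ)) _).symm
  | mul a b ha hb iha ihb =>
    rw [show (⟨a * b, _⟩ : JacTorsion.FQ (F1 M)) = ⟨a, ha⟩ * ⟨b, hb⟩ from rfl]
    simp only [smul_mul', map_mul, iha, ihb]

end Fermat.Agent.DeligneSerre.Curve
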