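import Fermat.Agent.DeligneSerre.Geom.OpDiamond
import Fermat.Agent.DeligneSerre.Interface
import Fermat.Agent.GaloisReps.DegeneracyFun
import Fermat.Agent.ModFun.Affine

/-!
# The Hecke operator at a good prime on complex functions of `±Γ₁(M)`

The product over the standard representatives, and its expansion.
-/

set_option autoImplicit false
set_option linter.unusedSectionVars false

noncomputable section

open CongruenceSubgroup AlgebraicCurve ModularCurve
open UpperHalfPlane hiding I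
open Matrix.SpecialLinearGroup (mapGL)
open Fermat.Agent.ModFun (MerH HolH CuspAlg laurentExp twist affine affineRoot compAffine MeroAtInfty
  scaleH actMer comp_affine_mem exists_scaleH_smul laurentExp_compAffine)
open Fermat.Agent.RT.GammaH (hRep HIdx gamma0Elt gamma0Elt_mem gamma0Elt_upperLeft admissible_hRep
  exists_of_mem_img)
open Fermat.Agent.GaloisReps (actGL diagGL actGL_algebraMap)
open scoped MatrixGroups Manifold

namespace Fermat.Agent.DeligneSerre.Curve

/-- The product of the twists by all `p`-th roots of unity does not depend on the chosen one. -/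
theorem prod_twist_root {K : Type*} [Field K] {p : ℕ} [NeZero p] {ζ ζ' : Kˣ}
    (hζ : IsPrimitiveRoot ζ p) (hζ' : IsPrimitiveRoot ζ' p) (x : LaurentSeries K) :
    ∏ i : Fin p, twist (ζ ^ (i : ℕ)) x = ∏ i : Fin p, twist (ζ' ^ (i : ℕ)) x := by
  have hex : ∀ i : Fin p, ∃ j : Fin p, ζ' ^ (j : ℕ) = ζ ^ (i : ℕ) := fun i => by
    obtain ⟨j, hj, hje⟩ := (IsPrimitiveRoot.coe_units_iff.2 hζ').eq_pow_of_pow_eq_one
      (ξ := ((ζ ^ (i : ℕ) : Kˣ) : K))
      (by rw [← Units.val_pow_eq_pow_val, ← pow_mul, mul_comm, pow_mul, hζ.pow_eq_one, one_pow,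
        Units.val_one])
    exact ⟨⟨j, hj⟩, Units.ext (by rw [Units.val_pow_eq_pow_val]; exact hje)⟩
  choose σ hσ using hex
  refine Fintype.prod_bijective σ ((Fintype.bijective_iff_injective_and_card σ).2
    ⟨fun i j h => ?_, rfl⟩) _ _ fun i => by rw [hσ]
  refine Fin.ext (hζ.pow_inj i.2 j.2 ?_)
  rw [← hσ i, h, hσ]

theorem coeffMap_twist {R S : Type*} [Field R] [Field S] (f : R →+* S) (u : Rˣ)
    (x : LaurentSeries R) :
    coeffMap f (twist u x) = twist (Units.map (f : R →* S) u) (coeffMap f x) := by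
  ext k
  simp [← map_zpow, map_mul]

variable {M : ℕ} [NeZero M] [GoodLevel M] {p : ℕ} [Fact p.Prime]

theorem det_hRep_pos (i : HIdx M p) : 0 < (hRep M p i).det.val :=
  DeligneSerre.det_pos_of_mem_heckeSet (Fact.out : p.Prime).pos
    (RT.GammaH.hRep_mem_heckeSet (K := (⊤ : Subgroup (ZMod M)ˣ)) i)

theorem heckeDiag_eq_diagGL :
    haveI : NeZero p := ⟨(Fact.out : p.Prime).ne_zero⟩
    ModularForm.heckeDiagMatrix p = diagGL p := by
  refine Units.ext ?_
  rw [GaloisReps.coe_diagGL]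
  simp [(Fact.out : p.Prime).ne_zero]

theorem exists_hRep_decomp (i : HIdx M p) :
    haveI : NeZero p := ⟨(Fact.out : p.Prime).ne_zero⟩
    ∃ g₁ g₂ : SL(2, ℤ), hRep M p i = mapGL ℝ g₁ * diagGL p * mapGL ℝ g₂ := by
  have hp := (Fact.out : p.Prime).ne_zero
  haveI : NeZero p := ⟨hp⟩
  rcases i with ⟨_ | j, h⟩
  · refine ⟨gamma0Elt (ZMod.unitOfCoprime p
      ((Nat.Prime.coprime_iff_not_dvd (Fact.out : p.Prime)).2 (h rfl)))⁻¹, 1, ?_⟩
    rw [map_one, mul_one]
    show _ * ModularForm.heckeDiagMatrix p = _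
    rw [heckeDiag_eq_diagGL]
  · refine ⟨⟨!![0, 1; -1, 0], by simp [Matrix.det_fin_two_of]⟩,
      ⟨!![0, -1; 1, (j : ℤ)], by simp [Matrix.det_fin_two_of]⟩, Units.ext ?_⟩
    show (ModularForm.heckeMatrix p j : Matrix (Fin 2) (Fin 2) ℝ) = _
    rw [ModularForm.val_heckeMatrix hp, Units.val_mul, Units.val_mul, GaloisReps.coe_diagGL]
    ext a b
    fin_cases a <;> fin_cases b <;> simp [Matrix.mul_apply, Fin.sum_univ_two]

theorem mero_comp_hRep (a : Hol1 M) (i : HIdx M p) (g : SL(2, ℤ)) :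
    MeroAtInfty fun τ => (a : ℍ → ℂ) (hRep M p i • g • τ) := by
  haveI : NeZero p := ⟨(Fact.out : p.Prime).ne_zero⟩
  obtain ⟨g₁, g₂, hg⟩ := exists_hRep_decomp i
  obtain ⟨δ, a', b, e, _, _, -, -, hd⟩ := exists_scaleH_smul p (g₂ * g)
  haveI : NeZero (e * M) := ⟨mul_ne_zero (NeZero.ne e) (NeZero.ne M)⟩
  have hN : ∀ τ : ℍ, scaleH M (affine a' b (e * M) τ) = affine a' b e τ := fun τ => by
    have hM : (M : ℂ) ≠ 0 := by exact_mod_cast NeZero.ne M
    apply UpperHalfPlane.ext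
    rw [ModFun.coe_scaleH, ModFun.coe_affine, ModFun.coe_affine]
    push_cast
    field_simp
  have he : (fun τ => (a : ℍ → ℂ) (hRep M p i • g • τ)) =
      fun τ => (fun τ => (a : ℍ → ℂ) ((g₁ * δ) • scaleH M τ)) (affine a' b (e * M) τ) := by
    funext τ
    show _ = (a : ℍ → ℂ) ((g₁ * δ) • scaleH M (affine a' b (e * M) τ))
    rw [hg, mul_smul, mul_smul, GaloisReps.diagGL_smul, hN, mul_smul, ← hd, mul_smul]
    rfl
  rw [he]
  exact (comp_affine_mem a' b (e * M)
    (GaloisReps.comp_scaleH_mem_CuspAlg ⟨_, comp_SL_mem_CuspAlg1 a.2 (g₁ * δ)⟩)).2.2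

theorem mero_prod {ι : Type*} [Fintype ι] (F : ι → ℍ → ℂ) (h : ∀ i, MeroAtInfty (F i)) :
    MeroAtInfty fun τ => ∏ i, F i τ := by
  rw [← Finset.prod_fn]
  exact Finset.prod_induction _ MeroAtInfty (fun _ _ => MeroAtInfty.mul)
    (MeroAtInfty.of_isBounded ModFun.isBounded_one) fun i _ => h i

/-- The product of the translates. -/
def transProd (p : ℕ) [Fact p.Prime] (a : Hol1 M) : HolH :=
  ∏ i : HIdx M p, GaloisReps.actGLHom (hRep M p i) (det_hRep_pos i) (hol1ToHolH M a)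

theorem transProd_apply (a : Hol1 M) (τ : ℍ) :
    (transProd p a : ℍ → ℂ) τ = ∏ i, (a : ℍ → ℂ) (hRep M p i • τ) := by
  rw [transProd, SubmonoidClass.coe_finsetProd, Finset.prod_apply]
  rfl

theorem transProd_mem (a : Hol1 M) : (transProd p a : ℍ → ℂ) ∈ Hol1 M := by
  refine ⟨(transProd p a).2, fun g hg τ => ?_, fun g => ?_⟩
  · obtain ⟨σ, hσb, hσ⟩ := admissible_hRep (M := M) (K := Subgroup.zpowers (-1)) (n := p)
      (⟨g, hg⟩ : G1 M)
    rw [transProd_apply, transProd_apply]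
    refine Fintype.prod_bijective σ hσb _ _ fun i => ?_
    obtain ⟨δ, hδ⟩ := exists_of_mem_img (hσ i)
    have he : hRep M p i * mapGL ℝ g = mapGL ℝ (δ : SL(2, ℤ)) * hRep M p (σ i) := by
      rw [hδ, inv_mul_cancel_right]
    show (a : ℍ → ℂ) (hRep M p i • mapGL ℝ g • τ) = _
    rw [← mul_smul, he, mul_smul]
    exact a.2.2.1 _ δ.2 _
  · simp only [transProd_apply]
    exact mero_prod _ fun i => mero_comp_hRep a i g

/-- The product of the translates in `Hol1`. -/
def transHol (p : ℕ) [Fact p.Prime] (a : Hol1 M) : Hol1 M := ⟨_, transProd_mem (p := p) a⟩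

theorem exists_hecke_e11 (p : ℕ) [Fact p.Prime] (x : F1C M) :
    ∃ y : F1C M, e11 M y = ∏ i : HIdx M p, actGL (hRep M p i) (det_hRep_pos i) (e11 M x) := by
  obtain ⟨a, b, -, rfl⟩ := exists_div_eq1 x
  refine ⟨toF1C M (transHol p a) / toF1C M (transHol p b), ?_⟩
  have key : ∀ f : Hol1 M, e11 M (toF1C M (transHol p f)) =
      ∏ i : HIdx M p, actGL (hRep M p i) (det_hRep_pos i) (e11 M (toF1C M f)) := fun f => by
    simp only [e11_toF1C, actGL_algebraMap, ← map_prod]
    rfl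
  rw [map_div₀, key, key, ← Finset.prod_div_distrib]
  simp only [map_div₀]

/-- `T_p` on complex functions. -/
def heckeC (M : ℕ) [NeZero M] [GoodLevel M] (p : ℕ) [Fact p.Prime] : F1C M →* F1C M where
  toFun x := (exists_hecke_e11 p x).choose
  map_one' := (e11 M).toRingHom.injective <| by
    show e11 M _ = e11 M _
    rw [(exists_hecke_e11 p (1 : F1C M)).choose_spec]
    simp
  map_mul' x y := (e11 M).toRingHom.injective <| by
    show e11 M _ = e11 M _
    rw [map_mul (e11 M) (Exists.choose _), (exists_hecke_e11 p (x * y)).choose_spec,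
      (exists_hecke_e11 p x).choose_spec, (exists_hecke_e11 p y).choose_spec,
      ← Finset.prod_mul_distrib]
    simp

theorem e11_heckeC (x : F1C M) : e11 M (heckeC M p x) =
    ∏ i : HIdx M p, actGL (hRep M p i) (det_hRep_pos i) (e11 M x) :=
  (exists_hecke_e11 p x).choose_spec

theorem laurentExp_of_width_one [NeZero p] (f : CuspAlg 1) (g : CuspAlg p)
    (h : (g : ℍ → ℂ) = f) : laurentExp p g = qExpand ℂ p (laurentExp 1 f) := by
  have h1 := ModFun.laurentExp_mul (h := 1) p f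
  have key : ∀ (k : ℕ) [NeZero k] (hk : k = p) (y : CuspAlg k), (y : ℍ → ℂ) = (f : ℍ → ℂ) →
      laurentExp p g = laurentExp k y := by
    rintro k _ rfl y hy
    exact congrArg _ (Subtype.ext (h.trans hy.symm))
  exact (key (p * 1) (mul_one p) _ rfl).trans h1

theorem gamma0Elt_inv_lowerRight (u : (ZMod M)ˣ) :
    ((gamma0Elt u⁻¹ : SL(2, ℤ)) 1 1 : ZMod M) = u := by
  have hd : ((gamma0Elt u⁻¹ : SL(2, ℤ)) 0 0 : ZMod M) * (gamma0Elt u⁻¹ : SL(2, ℤ)) 1 1 -
      (gamma0Elt u⁻¹ : SL(2, ℤ)) 0 1 * (gamma0Elt u⁻¹ : SL(2, ℤ)) 1 0 = 1 := by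
    exact_mod_cast congrArg (Int.cast : ℤ → ZMod M) (Gamma0.det_eq (gamma0Elt u⁻¹))
  rw [Gamma0_mem.1 (gamma0Elt_mem _), mul_zero, sub_zero, gamma0Elt_upperLeft] at hd
  have h2 := congrArg (fun x => (u : ZMod M) * x) hd
  simpa [← mul_assoc] using h2

theorem affineRoot_natCast [NeZero p] (j : ℕ) : affineRoot (j : ℤ) p = affineRoot 1 p ^ j := by
  ext
  simp only [affineRoot, Units.val_pow_eq_pow_val, Units.val_mk0, ← Complex.exp_nat_mul]
  congr 1
  push_cast
  ring

theorem isPrimitiveRoot_affineRoot [NeZero p] : IsPrimitiveRoot (affineRoot 1 p) p := by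
  rw [← IsPrimitiveRoot.coe_units_iff]
  simpa [affineRoot] using Complex.isPrimitiveRoot_exp p (NeZero.ne p)

theorem series_transHol [NeZero p] (hpM : ¬ p ∣ M) (a : Hol1 M) :
    qExpand ℂ p (qExp1 M (transHol p a)) =
      qExpand ℂ p (qExpand ℂ p (qExp1 M (dia M (primeUnit M p Fact.out hpM) a))) *
        ∏ j : Fin p, twist (affineRoot 1 p ^ (j : ℕ)) (qExp1 M a) := by
  let inc : Hol1 M → CuspAlg 1 := Subalgebra.inclusion (Hol1_le_CuspAlg_one (M := M))
  let u := primeUnit M p Fact.out hpM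
  let D : CuspAlg p :=
    Subalgebra.inclusion (ModFun.CuspAlg_le_mul p (NeZero.ne p)) (compAffine p 0 1 (inc (dia M u a))) |>
      fun f => ⟨f, by simpa using f.2⟩
  let S : Fin p → CuspAlg p := fun j => compAffine 1 (j : ℕ) p (inc a)
  let e : HIdx M p ≃ Option (Fin p) :=
    ⟨Subtype.val, fun o => ⟨o, fun _ => hpM⟩, fun _ => rfl, fun _ => rfl⟩
  have hfun : ((D * ∏ j, S j : CuspAlg p) : ℍ → ℂ) = (inc (transHol p a) : ℍ → ℂ) := by
    funext τ
    show _ = (transProd p a : ℍ → ℂ) τ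
    rw [transProd_apply, Subalgebra.coe_mul, Pi.mul_apply, SubmonoidClass.coe_finsetProd,
      Finset.prod_apply, Fintype.prod_equiv e _
        (fun o : Option (Fin p) => o.elim ((D : ℍ → ℂ) τ) fun j => (S j : ℍ → ℂ) τ),
      Fintype.prod_option]
    · rfl
    rintro ⟨_ | j, hi⟩
    · show (a : ℍ → ℂ) ((mapGL ℝ (gamma0Elt u⁻¹) * ModularForm.heckeDiagMatrix p) • τ) =
        (dia M u a : ℍ → ℂ) (affine p 0 1 τ)
      rw [heckeDiag_eq_diagGL, mul_smul, GaloisReps.diagGL_smul]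
      exact comp_gamma0_eq_dia a (gamma0Elt_mem _) u (Or.inl (gamma0Elt_inv_lowerRight u)) _
    · show (a : ℍ → ℂ) (hRep M p ⟨some j, hi⟩ • τ) = (a : ℍ → ℂ) (affine 1 (j : ℕ) p τ)
      refine congrArg _ (UpperHalfPlane.ext ?_)
      rw [coe_smul_of_det_pos (det_hRep_pos (M := M) ⟨some j, hi⟩), ModFun.coe_affine]
      simp [num, denom, hRep, ModularForm.val_heckeMatrix (NeZero.ne p)]
  have h := laurentExp_of_width_one _ _ hfun
  rw [map_mul, map_prod] at h
  refine h.symm.trans (congrArg₂ (· * ·) ?_ (Finset.prod_congr rfl fun j _ => ?_))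
  · rw [laurentExp_of_width_one (compAffine p 0 1 (inc (dia M u a))) D rfl, laurentExp_compAffine,
      ModFun.affineRoot_zero, ModFun.twist_one]
    rfl
  · rw [laurentExp_compAffine, qExpand_one_apply, affineRoot_natCast]
    rfl

/-- The expansion of `T_p x`. -/
theorem series_heckeC [NeZero p] (hpM : ¬ p ∣ M) {ζ : ℂˣ} (hζ : IsPrimitiveRoot ζ p) (x : F1C M) :
    qExpand ℂ p ((heckeC M p x : F1C M) : LaurentSeries ℂ) =
      qExpand ℂ p (qExpand ℂ p ((diaC (primeUnit M p Fact.out hpM) x : F1C M) : LaurentSeries ℂ)) *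
        ∏ j : Fin p, twist (ζ ^ (j : ℕ)) (x : LaurentSeries ℂ) := by
  rw [prod_twist_root hζ isPrimitiveRoot_affineRoot]
  obtain ⟨a, b, -, rfl⟩ := exists_div_eq1 x
  have hT : heckeC M p (toF1C M a / toF1C M b) =
      toF1C M (transHol p a) / toF1C M (transHol p b) := by
    refine (e11 M).toRingHom.injective ?_
    show e11 M _ = e11 M _
    rw [e11_heckeC, map_div₀, map_div₀]
    simp only [e11_toF1C, map_div₀, actGL_algebraMap, Finset.prod_div_distrib, ← map_prod]
    rfl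
  rw [hT, map_div₀ (diaC _), diaC_toF1C, diaC_toF1C]
  simp only [IntermediateField.coe_div, coe_toF1C, map_div₀, series_transHol hpM,
    Finset.prod_div_distrib, div_mul_div_comm]

/-- `T_p` commutes with the automorphisms of `ℂ`. -/
theorem heckeC_gal [NeZero p] (hpM : ¬ p ∣ M) (σ : ℂ ≃ₐ[ℚ] ℂ) (x : F1C M) :
    heckeC M p (JacTorsion.gal (F1 M) σ • x) = JacTorsion.gal (F1 M) σ • heckeC M p x := by
  refine Subtype.ext (qExpand_injective (R := ℂ) (N := p) ?_)
  have hζ : IsPrimitiveRoot (affineRoot 1 p) p := isPrimitiveRoot_affineRoot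
  have hζ' : IsPrimitiveRoot (Units.map ((σ : ℂ →+* ℂ) : ℂ →* ℂ) (affineRoot 1 p)) p :=
    hζ.map_of_injective (Units.map_injective (f := ((σ : ℂ →+* ℂ) : ℂ →* ℂ)) σ.injective)
  rw [series_heckeC hpM hζ' (JacTorsion.gal (F1 M) σ • x), JacTorsion.coe_gal_smul,
    JacTorsion.coe_gal_smul, ← coeffMap_qExpand, series_heckeC hpM hζ x, map_mul, map_prod, diaC_gal,
    JacTorsion.coe_gal_smul, coeffMap_qExpand, coeffMap_qExpand]
  simp only [coeffMap_twist, map_pow]

end Fermat.Agent.DeligneSerre.Curve
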