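import Fermat.Agent.DeligneSerre.Geom.OpHecke

/-!
# The operators on roots: divisibility of divisors and characters
-/

set_option autoImplicit false
set_option linter.unusedSectionVars false

noncomputable section

open CongruenceSubgroup AlgebraicCurve ModularCurve
open UpperHalfPlane hiding I
open Matrix.SpecialLinearGroup (mapGL)
open Fermat.Agent.JacTorsion (zetaPow zetaPow_pow divGrp meroAtInfty_of_pow actMer_mul)
open Fermat.Agent.ModFun (MerH HolH actMer actHol MeroAtInfty)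
open Fermat.Agent.RT.GammaH (hRep HIdx gamma0Elt gamma0Elt_mem admissible_hRep exists_of_mem_img
  hecke diamond opOf_apply_of_isPerm onImg_mapGL)
open Fermat.Agent.GaloisReps (actGL actGLHom actGL_algebraMap)
open scoped MatrixGroups

namespace Fermat.Agent.DeligneSerre.Curve

variable {M : ℕ} [NeZero M] [GoodLevel M] {m : ℕ} [NeZero m]

theorem zetaPow_finsetSum {ι : Type*} (s : Finset ι) (a : ι → ZMod m) :
    zetaPow m (∑ i ∈ s, a i) = ∏ i ∈ s, zetaPow m (a i) := by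
  classical
  induction s using Finset.induction with
  | empty => simpa using JacTorsion.zetaPow_zero (m := m)
  | insert i s hi ih => rw [Finset.sum_insert hi, Finset.prod_insert hi, JacTorsion.zetaPow_add, ih]

/-- A function with an `m`-th root having a multiplier killing elliptic and parabolic elements
has divisor divisible by `m`. -/
theorem dvd_ord_of_semiinvariant {x : F1C M} (hx0 : x ≠ 0) {Hn : HolH} {B C : Hol1 M} (hB : B ≠ 0)
    (hHC : Hn ^ m = hol1ToHolH M C)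
    (hh : (algebraMap HolH MerH Hn / e11 M (toF1C M B)) ^ m = e11 M x)
    (φ : Gamma0.ellParHoms (G1 M) (ZMod m))
    (hφ : ∀ γ : G1 M, actMer (γ : SL(2, ℤ)) (algebraMap HolH MerH Hn / e11 M (toF1C M B)) =
      algebraMap ℂ MerH (zetaPow m (φ.1 (Additive.ofMul γ))) *
        (algebraMap HolH MerH Hn / e11 M (toF1C M B)))
    (P : Place ℂ (F1C M)) : (m : ℤ) ∣ P.ord x := by
  obtain ⟨k, hk⟩ : ∃ k, m = k + 1 := ⟨m - 1, by have := NeZero.ne m; omega⟩
  obtain ⟨g, hg⟩ := exists_rootChar1_eq φ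
  obtain ⟨H₁, b₁, C₁, hH₁, hb₁, hHC₁, -, hh₁⟩ := exists_root1 (Units.ne_zero (g : (F1C M)ˣ)) g.2
  set N : HolH := Hn * hol1ToHolH M b₁ * H₁ ^ k with hN
  have hinv : ∀ γ : G1 M, actHol (γ : SL(2, ℤ)) N = N := fun γ => by
    have hb : actHol (γ : SL(2, ℤ)) (hol1ToHolH M b₁) = hol1ToHolH M b₁ :=
      Subtype.ext (funext fun τ => b₁.2.2.1 _ γ.2 τ)
    have h1 := rootChar1_spec g _ hh₁ γ
    rw [hg] at h1
    rw [hN, map_mul, map_mul, map_pow, e11_algebraMap_inv γ.2 hB (hφ γ), hb,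
      e11_algebraMap_inv γ.2 hb₁ h1]
    calc _ = algebraMap ℂ HolH (zetaPow m (φ.1 (Additive.ofMul γ)) ^ m) * N := by
          rw [hN]
          conv_rhs => rw [map_pow]; arg 1; arg 2; rw [hk]
          ring
      _ = _ := by rw [zetaPow_pow, map_one, one_mul]
  set Cm : Hol1 M := C * b₁ ^ m * C₁ ^ k with hCm
  have hNm : N ^ m = hol1ToHolH M Cm := by
    rw [hN, hCm, map_mul, map_mul, map_pow, map_pow, ← hHC, ← hHC₁, mul_pow, mul_pow, ← pow_mul,
      ← pow_mul, mul_comm k m]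
  have hmem : (N : ℍ → ℂ) ∈ Hol1 M := by
    refine ⟨N.2, fun γ hγ τ => congrFun (congrArg Subtype.val (hinv ⟨γ, hγ⟩)) τ, fun γ => ?_⟩
    refine meroAtInfty_of_pow (m := m) ?_
    have : (fun τ => (N : ℍ → ℂ) (γ • τ)) ^ m = fun τ => (Cm : ℍ → ℂ) (γ • τ) := by
      funext τ
      exact congrFun (congrArg Subtype.val hNm) (γ • τ)
    rw [this]
    exact Cm.2.2.2 γ
  set y : F1C M := toF1C M ⟨_, hmem⟩ / (toF1C M B * toF1C M C₁) with hy
  have hF : ∀ a : Hol1 M, a ≠ 0 → e11 M (toF1C M a) ≠ 0 := fun a ha =>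
    (map_ne_zero _).mpr ((map_ne_zero_iff _ toF1C_injective).mpr ha)
  have hC₁ : C₁ ≠ 0 := fun h => pow_ne_zero m hH₁ (by rw [hHC₁, h, map_zero])
  have hN' : e11 M (toF1C M ⟨_, hmem⟩) =
      algebraMap HolH MerH Hn * e11 M (toF1C M b₁) * algebraMap HolH MerH H₁ ^ k := by
    rw [e11_toF1C, e11_toF1C, ← map_pow, ← map_mul, ← map_mul]
    rfl
  have hC₁' : e11 M (toF1C M C₁) = algebraMap HolH MerH H₁ ^ k * algebraMap HolH MerH H₁ := by
    rw [← pow_succ, ← hk, ← map_pow, hHC₁, e11_toF1C]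
  have hxy : x = y ^ m * ((g : (F1C M)ˣ) : F1C M) := by
    refine (e11 M).toRingHom.injective ?_
    show e11 M x = e11 M _
    rw [map_mul, map_pow, ← hh, ← hh₁, ← mul_pow]
    congr 1
    have h2 := hF B hB
    have h3 := hF b₁ hb₁
    have h4 : algebraMap HolH MerH H₁ ≠ 0 := JacTorsion.algebraMap_ne_zero' hH₁
    rw [hy, map_div₀, map_mul, hN', hC₁']
    field_simp
  rcases eq_or_ne y 0 with hy0 | hy0
  · rw [hy0, zero_pow (NeZero.ne m), zero_mul] at hxy
    exact absurd hxy hx0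
  rw [hxy, P.ord_mul (pow_ne_zero _ hy0) (Units.ne_zero _), JacTorsion.ord_pow]
  exact dvd_add (dvd_mul_right _ _) (g.2 P)

variable (M) (m) in
theorem kummerChar1_mk (f : divGrp (AlgebraicClosure ℚ) (JacTorsion.FQ (F1 M)) m) :
    (kummerChar1 M m (QuotientGroup.mk f)).toAdd = rootChar1 M m (JacTorsion.divGrpExt m f) := rfl

/-- The root of a diamond translate. -/
theorem isRootChar1_diaC (u : (ZMod M)ˣ) {x : F1C M} (hx0 : x ≠ 0)
    (hx : ∀ P : Place ℂ (F1C M), (m : ℤ) ∣ P.ord x) {φ : Additive (G1 M) →+ ZMod m}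
    (hφ : IsRootChar1 x φ) :
    IsRootChar1 (diaC u x) (diamond M (Subgroup.zpowers (-1)) (ZMod m) u φ) := by
  obtain ⟨H, b, C, -, -, -, -, hh⟩ := exists_root1 hx0 hx
  set h : MerH := algebraMap HolH MerH H / e11 M (toF1C M b)
  set g : SL(2, ℤ) := gamma0Elt u⁻¹
  refine isRootChar1_of_root ((map_ne_zero _).mpr hx0) (h := actMer g h) ?_ fun γ => ?_
  · rw [← map_pow, hh, e11_diaC (gamma0Elt_mem _) (gamma0Elt_inv_lowerRight u)]
  · have hc : g * (γ : SL(2, ℤ)) * g⁻¹ ∈ G1 M := RT.GammaH.gammaH_conj (gamma0Elt_mem _) γ.2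
    set δ : G1 M := ⟨_, hc⟩
    have hσ : RT.GammaH.IsPerm (G1 M) (RT.GammaH.diaRep u) (mapGL ℝ (γ : SL(2, ℤ))) id :=
      ⟨Function.bijective_id, fun _ => by
        simp only [RT.GammaH.diaRep, ← map_inv, ← map_mul]
        exact RT.GammaH.mapGL_mem_img.2 hc⟩
    have hval : diamond M (Subgroup.zpowers (-1)) (ZMod m) u φ (Additive.ofMul γ) =
        φ (Additive.ofMul δ) := by
      rw [diamond, opOf_apply_of_isPerm _ _ _ hσ, Fintype.sum_unique]
      simp only [RT.GammaH.diaRep, ← map_inv, ← map_mul]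
      exact onImg_mapGL φ δ
    rw [← actMer_mul, show g * (γ : SL(2, ℤ)) = (δ : SL(2, ℤ)) * g from
      (inv_mul_cancel_right _ _).symm, actMer_mul, hφ h hh δ, map_mul, AlgEquiv.commutes, hval]

section Hecke

variable {p : ℕ} [Fact p.Prime]

/-- `T_p` preserves divisibility of the divisor, and acts by `hecke` on the characters. -/
theorem heckeC_root {x : F1C M} (hx0 : x ≠ 0) (hx : ∀ P : Place ℂ (F1C M), (m : ℤ) ∣ P.ord x)
    (φ : Gamma0.ellParHoms (G1 M) (ZMod m)) (hφ : IsRootChar1 x φ.1) :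
    (heckeC M p x ≠ 0 ∧ ∀ P : Place ℂ (F1C M), (m : ℤ) ∣ P.ord (heckeC M p x)) ∧
      IsRootChar1 (heckeC M p x) (hecke M (Subgroup.zpowers (-1)) p (ZMod m) φ.1) := by
  obtain ⟨H, b, C, -, -, hHC, -, hh⟩ := exists_root1 hx0 hx
  set h : MerH := algebraMap HolH MerH H / e11 M (toF1C M b)
  set Hn : HolH := ∏ i : HIdx M p, actGLHom (hRep M p i) (det_hRep_pos i) H
  set B : Hol1 M := transHol p b
  have hT0 : heckeC M p x ≠ 0 := by
    intro h0
    have h1 := e11_heckeC (p := p) x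
    rw [h0, map_zero] at h1
    obtain ⟨i, -, hi⟩ := Finset.prod_eq_zero_iff.mp h1.symm
    exact (map_ne_zero (actGL _ _)).mpr ((map_ne_zero (e11 M)).mpr hx0) hi
  have hR : ∏ i : HIdx M p, actGL (hRep M p i) (det_hRep_pos i) h =
      algebraMap HolH MerH Hn / e11 M (toF1C M B) := by
    simp only [h, Hn, B, e11_toF1C, map_div₀, actGL_algebraMap, Finset.prod_div_distrib, map_prod]
    congr 1
    rw [← map_prod]
    rfl
  have hRm : (∏ i : HIdx M p, actGL (hRep M p i) (det_hRep_pos i) h) ^ m =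
      e11 M (heckeC M p x) := by
    simp only [← Finset.prod_pow, ← map_pow, hh, e11_heckeC]
  have hact : ∀ γ : G1 M,
      actMer (γ : SL(2, ℤ)) (∏ i : HIdx M p, actGL (hRep M p i) (det_hRep_pos i) h) =
      algebraMap ℂ MerH (zetaPow m (hecke M (Subgroup.zpowers (-1)) p (ZMod m) φ.1
        (Additive.ofMul γ))) * ∏ i : HIdx M p, actGL (hRep M p i) (det_hRep_pos i) h := by
    intro γ
    obtain ⟨σ, hσ⟩ := admissible_hRep (M := M) (K := Subgroup.zpowers (-1)) (n := p) γ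
    choose δ hδ using fun i => exists_of_mem_img (hσ.2 i)
    rw [hecke, opOf_apply_of_isPerm _ _ _ hσ, zetaPow_finsetSum, map_prod, map_prod,
      ← hσ.1.prod_comp (fun i => actGL (hRep M p i) (det_hRep_pos i) h),
      ← Finset.prod_mul_distrib]
    refine Finset.prod_congr rfl fun i _ => ?_
    have he : hRep M p i * mapGL ℝ (γ : SL(2, ℤ)) =
        mapGL ℝ (δ i : SL(2, ℤ)) * hRep M p (σ i) := by
      rw [hδ, inv_mul_cancel_right]
    rw [← hδ, onImg_mapGL, ← GaloisReps.actGL_mapGL, ← GaloisReps.actGL_mul,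
      GaloisReps.actGL_congr he _ (GaloisReps.det_mul_pos (GaloisReps.det_mapGL_pos _)
        (det_hRep_pos _)),
      GaloisReps.actGL_mul (GaloisReps.det_mapGL_pos _) (det_hRep_pos _), GaloisReps.actGL_mapGL,
      hφ h hh (δ i), map_mul, AlgEquiv.commutes]
  refine ⟨⟨hT0, ?_⟩, isRootChar1_of_root hT0 hRm hact⟩
  have hB : B ≠ 0 := by
    intro h0
    have h1 := hRm
    rw [hR, h0, map_zero, map_zero, div_zero, zero_pow (NeZero.ne m)] at h1
    exact (map_ne_zero (e11 M)).mpr hT0 h1.symm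
  refine dvd_ord_of_semiinvariant (C := transHol p C) hT0 hB ?_ (hR ▸ hRm)
    ⟨_, hecke_mem_ellParHoms φ.2⟩ fun γ => hR ▸ hact γ
  simp only [Hn, ← Finset.prod_pow, ← map_pow, hHC]
  rfl

end Hecke

end Fermat.Agent.DeligneSerre.Curve
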