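import Fermat.Agent.DeligneSerre.Interface
import Fermat.Agent.RedTorsion.SeriesModel
import Fermat.Agent.Arith.RootsOfUnity

/-!
# The field of `±Γ₁(M)` over `ℚ̄` is generated over the field of `Γ₀(M)` by one element of known degree
-/

set_option autoImplicit false
set_option linter.unusedSectionVars false

noncomputable section

open scoped Classical
open Polynomial IsLocalRing ModularCurve
open Fermat.Agent.ModFun (Hol qExp qExp_mem_FC laurentBaseChange_eq_fullC)

namespace Fermat.Agent.DeligneSerre.Curve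

open Fermat.Agent.RedTorsion (serInt serRed)

local notation "Qb" => AlgebraicClosure ℚ

variable (M : ℕ) [NeZero M] [GoodLevel M]

/-- The function field of `Γ₀(M)` over `ℚ̄`. -/
abbrev F0Q : IntermediateField Qb (LaurentSeries Qb) := modularFunctionFieldFullC Qb M

theorem F0Q_le : F0Q M ≤ F1Q M := by
  rw [F0Q, ← laurentBaseChange_eq_fullC]
  exact baseChange_full_le Qb

/-- `u₁` generates the rational function field. -/
theorem F1_le_adjoin_uK_one :
    F1 M ≤ IntermediateField.adjoin ℚ
      ((modularFunctionFieldFull M : Set (LaurentSeries ℚ)) ∪ {uK (M := M) ℚ 1}) := by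
  rw [F1, IntermediateField.adjoin_le_iff]
  rintro x (hx | ⟨a, rfl⟩)
  · exact IntermediateField.subset_adjoin ℚ _ (Or.inl hx)
  refine JacTorsion.mem_of_coeffMap_mem_cExt (ι := algebraMap ℚ ℂ) ?_
  change coeffEmb ℂ (uK ℚ a) ∈ _
  rw [coeffEmb_uK, ← qExp1_uC]
  refine IntermediateField.adjoin_le_iff.mpr ?_ (qExp1_mem_adjoin (uC a))
  rintro y (hy | hy)
  · rw [SetLike.mem_coe, ModFun.FC, ← laurentBaseChange_eq_fullC] at hy
    exact IntermediateField.adjoin.mono ℂ _ _ (Set.image_mono fun z hz =>
      IntermediateField.subset_adjoin ℚ _ (Or.inl hz)) hy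
  · rw [Set.mem_singleton_iff.mp hy, qExp1_uC]
    have hu : uK (M := M) ℚ 1 ∈ IntermediateField.adjoin ℚ
        ((modularFunctionFieldFull M : Set (LaurentSeries ℚ)) ∪ {uK (M := M) ℚ 1}) :=
      IntermediateField.subset_adjoin ℚ _ (Or.inr rfl)
    have h1 := JacTorsion.coeffMap_mem_cExt (algebraMap ℚ ℂ) _ hu
    rw [coeffMap_uK] at h1
    exact h1

/-- `u₁` generates the field over `ℚ̄`. -/
theorem F1Q_le_adjoin_uK_one :
    F1Q M ≤ IntermediateField.adjoin Qb
      ((F0Q M : Set (LaurentSeries Qb)) ∪ {uK (M := M) Qb 1}) := by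
  show laurentBaseChange Qb (F1 M) ≤ _
  rw [laurentBaseChange, IntermediateField.adjoin_le_iff]
  rintro _ ⟨y, hy, rfl⟩
  have hy' := F1_le_adjoin_uK_one M hy
  clear hy
  induction hy' using IntermediateField.adjoin_induction with
  | mem z hz =>
    rcases hz with hz | hz
    · refine IntermediateField.subset_adjoin Qb _ (Or.inl ?_)
      rw [SetLike.mem_coe, F0Q, ← laurentBaseChange_eq_fullC]
      exact coeffEmb_mem_laurentBaseChange Qb hz
    · rw [Set.mem_singleton_iff.mp hz, coeffEmb_uK]
      exact IntermediateField.subset_adjoin Qb _ (Or.inr rfl)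
  | algebraMap c =>
    rw [coeffEmb, algebraMap_laurentSeries_eq_single, coeffMap_single,
      ← algebraMap_laurentSeries_eq_single]
    exact IntermediateField.algebraMap_mem _ _
  | add a c _ _ ha hc => rw [SetLike.mem_coe, map_add]; exact add_mem ha hc
  | inv a _ ha => rw [SetLike.mem_coe, map_inv₀]; exact inv_mem ha
  | mul a c _ _ ha hc => rw [SetLike.mem_coe, map_mul]; exact mul_mem ha hc

variable {M}

/-- A relation of `u₁` over the field of `Γ₀(M)` has degree at least the number of classes. -/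
theorem card_le_natDegree_C {P : (LaurentSeries ℂ)[X]} (hP : P ≠ 0)
    (hc : ∀ n, P.coeff n ∈ ModFun.FC M) (h : P.eval (uK (M := M) ℂ 1) = 0) :
    Fintype.card (Idx M) ≤ P.natDegree := by
  choose a b hb hab using fun n => ModFun.exists_div_eq (⟨_, hc n⟩ : ModFun.FC M)
  set d := P.natDegree
  set B : ℕ → Hol M := fun n => ∏ i ∈ (Finset.range (d + 1)).erase n, b i
  set R : (Hol1 M)[X] := ∑ n ∈ Finset.range (d + 1),
    monomial n (Subalgebra.inclusion Hol_le_Hol1 (a n * B n)) with hR
  have hbne : ∀ n, qExp M (b n) ≠ 0 := fun n h =>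
    hb n (Subalgebra.inclusion_injective Hol_le_Hol1 (qExp1_injective
      (by rw [qExp1_inclusion, h, map_zero, map_zero])))
  set q := ∏ i ∈ Finset.range (d + 1), qExp M (b i) with hq
  have hco : ∀ n ∈ Finset.range (d + 1), qExp M (a n * B n) = q * P.coeff n := by
    intro n hn
    have h1 : P.coeff n = qExp M (a n) / qExp M (b n) := congrArg Subtype.val (hab n)
    rw [hq, ← Finset.mul_prod_erase _ _ hn, h1, map_mul, map_prod]
    rw [mul_right_comm, mul_div_cancel₀ _ (hbne n)]
  have hmap : R.map (qExp1 M).toRingHom = C q * P := by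
    rw [hR, Polynomial.map_sum]
    conv_rhs => rw [P.as_sum_range' (d + 1) (Nat.lt_succ_self d), Finset.mul_sum]
    refine Finset.sum_congr rfl fun n hn => ?_
    rw [map_monomial, C_mul_monomial]
    congr 1
    show qExp1 M _ = _
    rw [qExp1_inclusion, hco n hn]
  have hq0 : q ≠ 0 := Finset.prod_ne_zero_iff.mpr fun i _ => hbne i
  have hRfix : ∀ r, R.map (dia M r).toRingHom = R := fun r => by
    rw [hR, Polynomial.map_sum]
    exact Finset.sum_congr rfl fun n _ => by rw [map_monomial]; congr 1; exact dia_inclusion r _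
  have hR1 : R.eval (uC 1) = 0 := by
    refine qExp1_injective ?_
    rw [map_zero]
    show (qExp1 M).toRingHom (R.eval (uC 1)) = _
    rw [← Polynomial.eval_map_apply, hmap]
    show (C q * P).eval (qExp1 M (uC 1)) = _
    rw [eval_mul, qExp1_uC, h, mul_zero]
  have hR0 : R ≠ 0 := fun h0 => by
    rw [h0, Polynomial.map_zero] at hmap
    exact mul_ne_zero (C_ne_zero.mpr hq0) hP hmap.symm
  have hroots : ∀ c : Idx M, R.IsRoot (uC c.out) := fun c => by
    have h1 := congrArg (dia M c.out).toRingHom hR1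
    rw [map_zero, ← Polynomial.eval_map_apply, hRfix] at h1
    rw [IsRoot, ← dia_uC_one]
    exact h1
  have hinj : Function.Injective fun c : Idx M => uC c.out := fun c c' hcc => by
    have h1 := congrArg (qExp1 M) hcc
    simp only [qExp1_uC] at h1
    exact (idx_eq_of_eq_or_neg (uK_eq_iff (Nat.cast_ne_zero.2 (NeZero.ne M)) h1)).symm
  calc Fintype.card (Idx M) = ((Finset.univ : Finset (Idx M)).image fun c => uC c.out).card := by
        rw [Finset.card_image_of_injective _ hinj, Finset.card_univ]
    _ ≤ Multiset.card R.roots := by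
        refine le_trans (Finset.card_le_card fun x hx => ?_) (Multiset.toFinset_card_le _)
        obtain ⟨c, -, rfl⟩ := Finset.mem_image.mp hx
        exact Multiset.mem_toFinset.mpr ((mem_roots hR0).mpr (hroots c))
    _ ≤ R.natDegree := R.card_roots'
    _ = (R.map (qExp1 M).toRingHom).natDegree :=
        (natDegree_map_eq_of_injective qExp1_injective R).symm
    _ ≤ P.natDegree := by rw [hmap]; exact natDegree_C_mul_le _ _

/-- A relation of `u₁` over the field of `Γ₀(M)` over `ℚ̄` has degree at least the number of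
classes. -/
theorem card_le_natDegree {P : (LaurentSeries Qb)[X]} (hP : P ≠ 0)
    (hc : ∀ n, P.coeff n ∈ F0Q M) (h : P.eval (uK (M := M) Qb 1) = 0) :
    Fintype.card (Idx M) ≤ P.natDegree := by
  let ι : Qb →+* ℂ := (IsAlgClosed.lift : Qb →ₐ[ℚ] ℂ).toRingHom
  refine (card_le_natDegree_C (P := P.map (coeffMap ι))
    ((Polynomial.map_ne_zero_iff (coeffMap ι).injective).mpr hP) (fun n => ?_) ?_).trans
    natDegree_map_le
  · have h1 : coeffMap ι (P.coeff n) ∈ JacTorsion.cExt ι (laurentBaseChange Qb
        (modularFunctionFieldFull M)) :=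
      JacTorsion.coeffMap_mem_cExt _ _ (by rw [laurentBaseChange_eq_fullC]; exact hc n)
    rw [JacTorsion.cExt_laurentBaseChange, laurentBaseChange_eq_fullC] at h1
    rw [coeff_map]; exact h1
  · rw [← coeffMap_uK Qb ι, Polynomial.eval_map_apply, h, map_zero]

section Integral

variable {A : ValuationSubring Qb} (hMA : (M : ResidueField A) ≠ 0)

include hMA in
/-- The generators have integral series, with the expected reductions. -/
theorem exists_uK_int (a : (ZMod M)ˣ) :
    ∃ h : uK (M := M) Qb a ∈ serInt A, serRed A ⟨_, h⟩ = uK (M := M) (ResidueField A) a := by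
  obtain ⟨im, him⟩ := isUnit_iff_exists_inv.mp
    ((residue_ne_zero_iff_isUnit (M : A)).mp (by rw [map_natCast]; exact hMA))
  have h1 : A.subtype im = (M : Qb)⁻¹ := eq_inv_of_mul_eq_one_right (by
    rw [← map_natCast A.subtype, ← map_mul, him, map_one])
  have h2 : residue A im = (M : ResidueField A)⁻¹ := eq_inv_of_mul_eq_one_right (by
    rw [← map_natCast (residue A), ← map_mul, him, map_one])
  have heq : coeffMap A.subtype (uSer A im a) = uK Qb a := by rw [coeffMap_uSer, h1]; rfl
  have hmem : coeffMap A.subtype (uSer A im a) ∈ serInt A := ⟨_, rfl⟩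
  refine ⟨heq ▸ hmem, ?_⟩
  rw [show (⟨uK Qb a, heq ▸ hmem⟩ : serInt A) = ⟨_, hmem⟩ from Subtype.ext heq.symm,
    RedTorsion.serRed_coeffMap, coeffMap_uSer, h2]
  rfl

/-- The relation of `u₁` with integral coefficients. -/
theorem exists_relation (hMA : (M : ResidueField A) ≠ 0) :
    ∃ Q : (RedTorsion.sint A (F0Q M))[X], Q.Monic ∧ Q.natDegree = Fintype.card (Idx M) ∧
      Q.map ((F0Q M).val.toRingHom.comp (RedTorsion.sint A (F0Q M)).subtype)
        = (diaPolyQ M).map (coeffEmb Qb) ∧
      Q.map RedTorsion.sred = ∏ q : Idx M, (X - C (uK (M := M) (ResidueField A) q.out)) := by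
  choose hu hur using exists_uK_int (A := A) hMA
  set PI : (serInt A)[X] := ∏ q : Idx M, (X - C ⟨_, hu q.out⟩) with hPI
  have hPIm : PI.Monic := monic_prod_of_monic _ _ fun q _ => monic_X_sub_C _
  have hsub : PI.map (serInt A).subtype = (diaPolyQ M).map (coeffEmb Qb) := by
    simp [hPI, diaPolyQ, Polynomial.map_prod, coeffEmb_uK]
  have hl : PI ∈ Polynomial.lifts (RedTorsion.toSerInt (A := A) (F := F0Q M)) := by
    rw [Polynomial.lifts_iff_coeff_lifts]
    intro n
    have h1 : ((PI.coeff n : serInt A) : LaurentSeries Qb) ∈ F0Q M := by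
      have h2 := congrArg (fun P => Polynomial.coeff P n) hsub
      simp only [coeff_map, Subring.subtype_apply] at h2
      rw [h2, F0Q, ← laurentBaseChange_eq_fullC]
      exact coeffEmb_mem_laurentBaseChange Qb (coeff_diaPolyQ_mem n)
    exact ⟨⟨⟨_, h1⟩, (PI.coeff n).2⟩, Subtype.ext rfl⟩
  obtain ⟨Q, hQ, hQd, hQm⟩ := Polynomial.lifts_and_natDegree_eq_and_monic hl hPIm
  refine ⟨Q, hQm, ?_, ?_, ?_⟩
  · rw [hQd, hPI, natDegree_prod_of_monic _ _ fun q _ => monic_X_sub_C _]
    simp
  · rw [← hsub, ← hQ, Polynomial.map_map]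
    rfl
  · rw [RedTorsion.sred, ← Polynomial.map_map, hQ, hPI, Polynomial.map_prod]
    simp [hur]

end Integral

end Fermat.Agent.DeligneSerre.Curve
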