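import Mathlib.FieldTheory.IntermediateField.Adjoin.Algebra
import Mathlib.FieldTheory.IntermediateField.Adjoin.Basic
import Mathlib.RingTheory.Polynomial.Basic
import Mathlib.LinearAlgebra.Basis.Basic

/-!
# The power basis of an extension generated by one element of known degree
-/

set_option autoImplicit false

noncomputable section

open scoped Classical
open Polynomial

namespace Fermat.Agent.DeligneSerre

variable {K V : Type*} [Field K] [Field V] [Algebra K V] {F E : IntermediateField K V}

/-- If `E` is generated over `F` by `u`, a root of a monic polynomial of degree `n`, and `u` has no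
relation of smaller degree, the powers of `u` form a basis. -/
theorem exists_powers_basis (h : F ≤ E) (u : E) {n : ℕ} (hn : 0 < n) {R : F[X]} (hRm : R.Monic)
    (hRd : R.natDegree = n) (hR0 : aeval (u : V) R = 0)
    (hgen : E ≤ IntermediateField.adjoin K ((F : Set V) ∪ {(u : V)}))
    (hdeg : ∀ P : F[X], P ≠ 0 → aeval (u : V) P = 0 → n ≤ P.natDegree) :
    letI := (IntermediateField.inclusion h).toRingHom.toAlgebra
    ∃ b : Module.Basis (Fin n) F E, ∀ i, b i = u ^ (i : ℕ) := by
  let _ := (IntermediateField.inclusion h).toRingHom.toAlgebra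
  have hev : ∀ P : F[X], ((aeval u P : E) : V) = aeval (u : V) P := fun P => by
    rw [aeval_def, aeval_def]
    exact hom_eval₂ P _ E.val.toRingHom _
  have hli : LinearIndependent F fun i : Fin n => u ^ (i : ℕ) := by
    rw [Fintype.linearIndependent_iff]
    intro g hg i
    set P : F[X] := ∑ i : Fin n, monomial (i : ℕ) (g i)
    have hP : aeval u P = 0 := by
      rw [← hg]; simp [P, aeval_monomial, Algebra.smul_def]
    by_contra hi
    have hP0 : P ≠ 0 := fun h => hi (by
      have := congrArg (fun Q => Polynomial.coeff Q (i : ℕ)) h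
      simpa [P, finsetSum_coeff, coeff_monomial, Fin.val_inj] using this)
    have h1 := hdeg P hP0 (by rw [← hev, hP]; rfl)
    have h2 : P.degree < (n : ℕ) := by
      refine lt_of_le_of_lt (degree_sum_le _ _) ((Finset.sup_lt_iff (WithBot.bot_lt_coe n)).mpr ?_)
      exact fun j _ => lt_of_le_of_lt (degree_monomial_le _ _) (WithBot.coe_lt_coe.mpr j.2)
    rw [← natDegree_lt_iff_degree_lt hP0] at h2
    omega
  have hspan : ⊤ ≤ Submodule.span F (Set.range fun i : Fin n => u ^ (i : ℕ)) := by
    intro y _
    have hint : IsIntegral F (u : V) := ⟨R, hRm, hR0⟩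
    have hle : IntermediateField.adjoin K ((F : Set V) ∪ {(u : V)}) ≤
        (IntermediateField.adjoin F ({(u : V)} : Set V)).restrictScalars K := by
      rw [IntermediateField.adjoin_le_iff]
      rintro z (hz | hz)
      · exact IntermediateField.algebraMap_mem _ (⟨z, hz⟩ : F)
      · exact IntermediateField.subset_adjoin _ _ hz
    have hy : (y : V) ∈ IntermediateField.adjoin F ({(u : V)} : Set V) := hle (hgen y.2)
    rw [← IntermediateField.mem_toSubalgebra,
      IntermediateField.adjoin_simple_toSubalgebra_of_isAlgebraic hint.isAlgebraic,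
      Algebra.adjoin_singleton_eq_range_aeval] at hy
    obtain ⟨P, hP⟩ := hy
    have hy' : y = aeval u (P %ₘ R) := Subtype.ext (by
      rw [hev, ← hP]
      show aeval (u : V) P = _
      conv_lhs => rw [← modByMonic_add_div P R, map_add, map_mul, hR0, zero_mul, add_zero])
    rw [hy', aeval_eq_sum_range' (n := n)]
    · refine sum_mem fun k hk => Submodule.smul_mem _ _ (Submodule.subset_span ?_)
      exact ⟨⟨k, Finset.mem_range.mp hk⟩, rfl⟩
    · rcases eq_or_ne (P %ₘ R) 0 with h | h
      · rw [h, natDegree_zero]; exact hn
      · rw [← hRd]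
        exact (natDegree_lt_natDegree_iff h).mpr (degree_modByMonic_lt P hRm)
  exact ⟨Module.Basis.mk hli hspan, fun i => Module.Basis.mk_apply hli hspan i⟩

end Fermat.Agent.DeligneSerre
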