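import Fermat.Agent.DeligneSerre.ModelAdjoin
import Fermat.Agent.EichlerShimura.GlobalRed

/-!
# Series of the elements of a model whose basis consists of integral series
-/

set_option autoImplicit false
set_option linter.unusedSectionVars false

noncomputable section

open scoped Classical
open Polynomial IsLocalRing ModularCurve

namespace Fermat.Agent.DeligneSerre

open Fermat.Agent.EichlerShimura
open Fermat.Agent.RedTorsion (serInt serRed evalA)

variable {L : Type*} [Field L] {A : ValuationSubring L} {ι : Type*} [Fintype ι]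

/-- The elements of the lattice are fractions of integral series with the expected reductions. -/
theorem exists_frac_series {E : Type*} [CommRing E] [Algebra (RatFunc L) E] {Eb : Type*}
    [CommRing Eb] [Algebra (RatFunc (Kappa A)) Eb] (M : Model A ι E Eb) (v : E →+* LaurentSeries L)
    (π : Eb →+* LaurentSeries (ResidueField A))
    (hl : ∀ p : A[X], v (algebraMap (RatFunc L) E (ratIncl A p)) = evalA A p ∧
      π (algebraMap (RatFunc (Kappa A)) Eb (ratBar A p)) = serRed A (evalA A p))
    (hb : ∀ i, ∃ s : serInt A, v (M.b i) = s ∧ π (M.bb i) = serRed A s) (z : M.S) :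
    ∃ (d p : serInt A) (d' p' : E), (d : LaurentSeries L) = v d' ∧
      (p : LaurentSeries L) = v p' ∧ serRed A d ≠ 0 ∧ v (z : E) * d = p ∧
      π (M.red z) * serRed A d = serRed A p := by
  choose s hs hs' using hb
  obtain ⟨d, q, hd, hzd⟩ := M.exists_common_den z
  let a : A[X] → M.S := fun r => ⟨_, M.algebraMap_mem (apply_mem_fracPart r)⟩
  have hred : ∀ r, M.red (a r) = algebraMap (RatFunc (Kappa A)) Eb (ratBar A r) := fun r => by
    rw [M.red_algebraMap (apply_mem_fracPart r), redG_ratIncl]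
  have hS : z * a d = ∑ i, a (q i) * ⟨M.b i, M.basis_mem i⟩ := Subtype.ext (by
    rw [Subring.coe_mul, AddSubmonoidClass.coe_finsetSum]
    exact hzd)
  refine ⟨evalA A d, ∑ i, evalA A (q i) * s i, _, _, (hl d).1.symm, (?_ : _ = v ((z : E) * algebraMap (RatFunc L) E (ratIncl A d))),
    fun h => hd (Igusa.aeval_jqModC_injective
      ((RedTorsion.serRed_evalA d).symm.trans (h.trans (map_zero _).symm))), ?_, ?_⟩
  · rw [hzd, map_sum, AddSubmonoidClass.coe_finsetSum]
    refine Finset.sum_congr rfl fun i _ => ?_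
    rw [map_mul, (hl _).1, hs, Subring.coe_mul]
  · rw [← (hl d).1, ← map_mul, hzd, map_sum, AddSubmonoidClass.coe_finsetSum]
    refine Finset.sum_congr rfl fun i _ => ?_
    rw [map_mul, (hl _).1, hs, Subring.coe_mul]
  · rw [← (hl d).2, ← hred, ← map_mul, ← map_mul, hS, map_sum, map_sum, map_sum]
    refine Finset.sum_congr rfl fun i _ => ?_
    rw [map_mul, map_mul, hred, (hl _).2, M.red_basis, hs', map_mul]

/-- Integral constants lie in the lattice and reduce to their residues. -/
theorem exists_mem_red_const {E : Type*} [CommRing E] [Algebra (RatFunc L) E] [Algebra L E]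
    [IsScalarTower L (RatFunc L) E] {Eb : Type*} [CommRing Eb] [Algebra (RatFunc (Kappa A)) Eb]
    (M : Model A ι E Eb) (π : Eb →+* LaurentSeries (ResidueField A))
    (hl : ∀ p : A[X],
      π (algebraMap (RatFunc (Kappa A)) Eb (ratBar A p)) = serRed A (evalA A p))
    {c : L} (hc : c ∈ A) :
    ∃ h : algebraMap L E c ∈ M.S,
      π (M.red ⟨_, h⟩) = algebraMap (ResidueField A) _ (residue A ⟨c, hc⟩) := by
  have heq : algebraMap (RatFunc L) E (RatFunc.C c) = algebraMap L E c := by
    rw [← RatFunc.algebraMap_eq_C, ← IsScalarTower.algebraMap_apply]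
  have hmem := M.algebraMap_mem (C_mem_Og (A := A) hc)
  refine ⟨heq ▸ hmem, ?_⟩
  rw [show (⟨algebraMap L E c, heq ▸ hmem⟩ : M.S) = ⟨_, hmem⟩ from Subtype.ext heq.symm,
    M.red_algebraMap (C_mem_Og hc), redG_C hc, ← ratBar_C (⟨c, hc⟩ : A), hl,
    RedTorsion.serRed_evalA]
  simp [polyBar]

variable {E : Type*} [CommRing E] [Algebra (RatFunc L) E]
  {Eb : Type*} [Field Eb] [Algebra (RatFunc (Kappa A)) Eb]
  {E1 : Type*} [CommRing E1] [Algebra E E1] [Algebra (RatFunc L) E1]
  [IsScalarTower (RatFunc L) E E1] {M : Model A ι E Eb} {Φ : M.S[X]} {U : E1} {n : ℕ}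
  {b1 : Module.Basis (Fin n) E E1}
  [Algebra.IsSeparable (RatFunc (Kappa A)) Eb]
  (hb1 : ∀ i : Fin n, b1 i = U ^ (i : ℕ)) (hm : Φ.Monic) (hn : Φ.natDegree = n)
  (hroot : evU M U Φ = 0) (hsep : (Φ.map M.red).Separable)

/-- The series of the basis of an adjunction. -/
theorem exists_series_adjoin (v : E1 →+* LaurentSeries L) {g : Eb →+* LaurentSeries (ResidueField A)}
    {r : LaurentSeries (ResidueField A)} (hr : (Φ.map M.red).eval₂ g r = 0) {u : serInt A}
    (hu : v U = u) (hu' : serRed A u = r)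
    (hb : ∀ i, ∃ s : serInt A, v (algebraMap E E1 (M.b i)) = s ∧ g (M.bb i) = serRed A s)
    (ij : ι × Fin n) :
    ∃ s : serInt A, v ((adjoinModel hb1 hm hn hroot hsep).b ij) = s ∧
      AdjoinRoot.lift g r hr ((adjoinModel hb1 hm hn hroot hsep).bb ij) = serRed A s := by
  obtain ⟨i, j⟩ := ij
  obtain ⟨s, hs, hs'⟩ := hb i
  refine ⟨s * u ^ (j : ℕ), ?_, ?_⟩
  · show v ((M.b.smulTower b1) (i, j)) = _
    rw [Module.Basis.smulTower_apply, hb1, Algebra.smul_def, map_mul, map_pow, hs, hu]
    rfl
  · show AdjoinRoot.lift g r hr ((M.bb.smulTower (basisAdjoinBar hm hn)) (i, j)) = _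
    rw [monomial_evB hm hn, evB, RingHom.comp_apply, coe_mapRingHom, map_monomial,
      AdjoinRoot.lift_mk, eval₂_monomial, M.red_basis, hs', map_mul, map_pow, hu']

end Fermat.Agent.DeligneSerre
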