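import Fermat.Agent.DeligneSerre.ArchVal
import Fermat.Agent.DeligneSerre.ModelAdjoin
import Fermat.Agent.DeligneSerre.Idempotents
import Fermat.Agent.FF.Along
import Fermat.Agent.FF.LocalBasis

/-!
# A function with divisible divisor whose reduction is a power is a power
-/

set_option autoImplicit false
set_option linter.unusedSectionVars false

noncomputable section

open scoped Classical
open Polynomial IsLocalRing AlgebraicCurve

namespace Fermat.Agent.DeligneSerre

open Fermat.Agent.EichlerShimura Fermat.Agent.FF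

/-- A basis with nonzero discriminant forces separability. -/
theorem isSeparable_of_discr_ne_zero {K F : Type*} [Field K] [Field F] [Algebra K F] {ι : Type*}
    [Fintype ι] [DecidableEq ι] (b : Module.Basis ι K F) (h : Algebra.discr K b ≠ 0) :
    Algebra.IsSeparable K F := by
  by_contra hs
  obtain ⟨i⟩ := b.index_nonempty
  refine h ?_
  rw [Algebra.discr_def]
  refine Matrix.det_eq_zero_of_row_eq_zero i fun j => ?_
  rw [Algebra.traceMatrix_apply, Algebra.traceForm_apply, Algebra.trace_eq_zero_of_not_isSeparable hs,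
    LinearMap.zero_apply]

section Ramification

variable {K E F : Type*} [Field K] [Field E] [Field F] [Algebra K E] [Algebra K F] [Algebra E F]
  [IsScalarTower K E F] [FiniteDimensional E F] [IsFunctionField K E] [IsFunctionField K F]
  [IsAlgClosed K] [CharZero K]

/-- Adjoining an `m`-th root of a function with order divisible by `m` does not ramify. -/
theorem ramificationIndex_eq_one_of_root (pb : PowerBasis E F) {c : E} (hc0 : c ≠ 0)
    (hpow : pb.gen ^ pb.dim = algebraMap E F c) {v : Place K E} (hv : (pb.dim : ℤ) ∣ v.ord c)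
    {w : Place K F} (hw : w ∈ v.fiber F) : w.ramificationIndex E = 1 := by
  set m := pb.dim with hm
  have hn : m = Module.finrank E F := pb.finrank.symm
  have hmpos : 0 < m := pb.dim_pos
  have hmne : (m : ℤ) ≠ 0 := by exact_mod_cast hmpos.ne'
  obtain ⟨D, hD⟩ := hv
  obtain ⟨s, hs0, hs⟩ := exists_ord_eq v (-D)
  set θ : F := algebraMap E F s * pb.gen with hθdef
  set c' : E := s ^ m * c with hc'def
  have hc'0 : c' ≠ 0 := mul_ne_zero (pow_ne_zero _ hs0) hc0
  have hθ : θ ^ m = algebraMap E F c' := by rw [hθdef, mul_pow, hpow, hc'def, map_mul, map_pow]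
  have hc'ord : v.ord c' = 0 := by
    rw [hc'def, v.ord_mul (pow_ne_zero _ hs0) hc0, ord_pow, hs, hD]; ring
  have hθ0 : θ ≠ 0 := fun h => by
    rw [h, zero_pow hmpos.ne'] at hθ
    exact (_root_.map_ne_zero (algebraMap E F)).mpr hc'0 hθ.symm
  -- the powers of `θ`
  let pb' : PowerBasis E F :=
    ⟨θ, m, pb.basis.unitsSMul (fun i => (Units.mk0 s hs0) ^ (i : ℕ)), fun i => by
      rw [Module.Basis.unitsSMul_apply, pb.basis_eq_pow, Units.smul_def, Units.val_pow_eq_pow_val,
        Units.val_mk0, Algebra.smul_def, hθdef, mul_pow, map_pow]⟩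
  have hmin : minpoly E θ = X ^ m - C c' := by
    refine (eq_of_monic_of_dvd_of_natDegree_le (minpoly.monic (Algebra.IsIntegral.isIntegral θ))
      (monic_X_pow_sub_C c' hmpos.ne') (minpoly.dvd E θ (by simp [hθ])) ?_).symm
    rw [natDegree_X_pow_sub_C]
    exact pb'.natDegree_minpoly.ge
  -- their discriminant is a unit at `v`
  have hN : v.ord (Algebra.norm E θ) = 0 := by
    have h1 := congrArg (Algebra.norm E) hθ
    rw [map_pow, Algebra.norm_algebraMap, ← hn] at h1
    have h2 := congrArg v.ord h1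
    rw [ord_pow, ord_pow, hc'ord, mul_zero, mul_eq_zero] at h2
    exact h2.resolve_left hmne
  have hmord : v.ord ((m : E) ^ m) = 0 := by
    rw [ord_pow, ← map_natCast (algebraMap K E), ord_algebraMap, mul_zero]
  have hord : v.ord (Algebra.discr E pb'.basis) = 0 := by
    have := isSeparable_ext K E F
    rw [Algebra.discr_powerBasis_eq_norm E pb']
    have hgen : pb'.gen = θ := rfl
    rw [hgen, hmin, derivative_sub, derivative_C, sub_zero, derivative_X_pow, map_mul, map_pow,
      aeval_X, aeval_C, map_mul, Algebra.norm_algebraMap, map_pow, ← hn]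
    have h1 : ((-1 : E) ^ (m * (m - 1) / 2)) ≠ 0 := pow_ne_zero _ (neg_ne_zero.mpr one_ne_zero)
    have h2 : (m : E) ^ m * Algebra.norm E θ ^ (m - 1) ≠ 0 := by
      refine mul_ne_zero (pow_ne_zero _ ?_) (pow_ne_zero _ (Algebra.norm_ne_zero_iff.mpr hθ0))
      rw [← map_natCast (algebraMap K E), _root_.map_ne_zero, Nat.cast_ne_zero]
      exact hmpos.ne'
    show v.ord ((-1 : E) ^ (m * (m - 1) / 2) * ((m : E) ^ m * Algebra.norm E θ ^ (m - 1))) = 0
    rw [v.ord_mul h1 h2, ord_pow, ← map_one (algebraMap K E), ← map_neg, ord_algebraMap,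
      v.ord_mul (left_ne_zero_of_mul h2) (right_ne_zero_of_mul h2), hmord, ord_pow, hN]
    ring
  -- compare with a local basis
  obtain ⟨η, γ, hγ, hη⟩ := exists_theta (F := F) v
  have hloc := isLocalBasis_powers hγ hη (rfl : Module.finrank E F = Module.finrank E F)
  set b := (hloc.basis rfl).reindex (finCongr hn.symm) with hb
  have hmem : ∀ i j, b.toMatrix pb'.basis i j ∈ ordGe v 0 := fun i j => by
    rw [Module.Basis.toMatrix_apply, hb, Module.Basis.repr_reindex_apply]
    refine hloc.repr_mem rfl ?_ _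
    rw [pb'.basis_eq_pow]
    refine mem_fiberGe_zero.mpr fun w hw => ?_
    refine mem_ordGe_of_le w ?_
    have h1 := congrArg w.ord hθ
    rw [ord_pow, w.ord_restrict (F := E), Place.mem_fiber.mp hw, hc'ord, mul_zero,
      mul_eq_zero] at h1
    show 0 ≤ w.ord (θ ^ (j : ℕ))
    rw [ord_pow, h1.resolve_left hmne, mul_zero]
  have hdet : (b.toMatrix pb'.basis).det ≠ 0 :=
    Matrix.det_ne_zero_of_right_inverse (b.toMatrix_mul_toMatrix_flip pb'.basis)
  have htr : Algebra.discr E pb'.basis = (b.toMatrix pb'.basis).det ^ 2 * Algebra.discr E b := by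
    rw [← Algebra.discr_of_matrix_vecMul (A := E) b (b.toMatrix pb'.basis)]
    congr 1
    funext j
    rw [← b.sum_repr (pb'.basis j)]
    simp [Matrix.vecMul, dotProduct, Module.Basis.toMatrix_apply, Algebra.smul_def, mul_comm]
  have hdiscr : Algebra.discr E b = Algebra.discr E (hloc.basis rfl) := by
    rw [hb, Module.Basis.coe_reindex]
    exact (Algebra.discr_reindex E (hloc.basis rfl) (finCongr hn.symm))
  have hd := hloc.ord_discr rfl
  rw [← hloc.coe_basis rfl] at hd
  rw [htr, v.ord_mul (pow_ne_zero _ hdet) (by rw [hdiscr]; exact discr_ne_zero' v _), ord_pow,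
    hdiscr, hd] at hord
  have hP := le_ord_of_mem_ordGe v hdet (det_mem _ hmem)
  have hterm : ∀ u ∈ v.fiber F, (0 : ℤ) ≤ (u.ramificationIndex E : ℤ) - 1 := fun u _ => by
    have := e_pos (F := E) u; omega
  have h0 : ∑ u ∈ v.fiber F, ((u.ramificationIndex E : ℤ) - 1) = 0 := by
    have := Finset.sum_nonneg hterm
    omega
  have := (Finset.sum_eq_zero_iff_of_nonneg hterm).mp h0 w hw
  omega

end Ramification

variable {L : Type*} [Field L] [IsAlgClosed L] [CharZero L] {A : ValuationSubring L}
  [IsAlgClosed (Kappa A)] {ι : Type*} [Fintype ι]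
variable {E : Type*} [Field E] [Algebra (RatFunc L) E] [Algebra L E] [IsScalarTower L (RatFunc L) E]
  [FiniteDimensional (RatFunc L) E] [IsFunctionField L E]
variable {Eb : Type*} [Field Eb] [Algebra (RatFunc (Kappa A)) Eb]

/-- If the model is tame over the line and `w` has divisor divisible by a prime `m` and reduces to
a nonzero `m`-th power, then `w` is an `m`-th power. -/
theorem exists_root_of_red_pow (M : Model A ι E Eb) (harch : IsArchVal A) {x : E}
    (hx : algebraMap (RatFunc L) E RatFunc.X = x) {N : ℕ} (hN : N ≠ 0)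
    (h0 : ∀ P : Place L E, 0 < P.ord x → P.ord x ∣ 3)
    (h1728 : ∀ P : Place L E, 0 < P.ord (x - algebraMap L E 1728) →
      P.ord (x - algebraMap L E 1728) ∣ 2)
    (hgen : ∀ a : L, a ≠ 0 → a ≠ 1728 → ∀ P : Place L E, 0 < P.ord (x - algebraMap L E a) →
      P.ord (x - algebraMap L E a) ∣ 1)
    (hpole : ∀ P : Place L E, P.ord x < 0 → P.ord x ∣ (N : ℤ))
    {m : ℕ} (hm : m.Prime) (hmA : (m : Kappa A) ≠ 0) (w : M.S) {G : Eb} (hG : G ≠ 0)
    (hred : M.red w = G ^ m) (hdiv : ∀ P : Place L E, (m : ℤ) ∣ P.ord (w : E)) :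
    ∃ r : E, r ^ m = (w : E) := by
  by_contra hno
  push Not at hno
  have := isSeparable_of_discr_ne_zero M.bb M.disc_ne
  have : Module.Finite (RatFunc (Kappa A)) Eb := Module.Finite.of_basis M.bb
  set P : E[X] := X ^ m - C (w : E) with hP
  have hirr : Irreducible P := X_pow_sub_C_irreducible_of_prime hm hno
  have := Fact.mk hirr
  have hPm : P.Monic := monic_X_pow_sub_C _ hm.ne_zero
  have hPd : P.natDegree = m := natDegree_X_pow_sub_C
  set pb := AdjoinRoot.powerBasis hirr.ne_zero
  have hdim : pb.dim = m := hPd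
  have : FiniteDimensional E (AdjoinRoot P) := pb.finite
  have : FiniteDimensional (RatFunc L) (AdjoinRoot P) := Module.Finite.trans E (AdjoinRoot P)
  have : IsFunctionField L (AdjoinRoot P) := isFunctionField_extension L E (AdjoinRoot P)
  have hw0 : (w : E) ≠ 0 := fun h => hno 0 (by rw [h, zero_pow hm.ne_zero])
  set U : AdjoinRoot P := AdjoinRoot.root P
  let b1 : Module.Basis (Fin m) E (AdjoinRoot P) := pb.basis.reindex (finCongr hdim)
  have hb1 : ∀ i : Fin m, b1 i = U ^ (i : ℕ) := fun i => by
    simp only [b1, Module.Basis.reindex_apply, PowerBasis.coe_basis]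
    rfl
  set Φ : M.S[X] := X ^ m - C w with hΦ
  have hΦm : Φ.Monic := monic_X_pow_sub_C _ hm.ne_zero
  have : Nontrivial M.S := M.red.domain_nontrivial
  have hΦd : Φ.natDegree = m := natDegree_X_pow_sub_C
  have hU : U ^ m = algebraMap E (AdjoinRoot P) (w : E) := by
    have h := AdjoinRoot.eval₂_root P
    rw [hP, eval₂_sub, eval₂_X_pow, eval₂_C, sub_eq_zero] at h
    exact h
  have hroot : evU M U Φ = 0 := by
    simp only [evU, hΦ, coe_eval₂RingHom, eval₂_sub, eval₂_X_pow, eval₂_C, hU]
    exact sub_self _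
  have hmb : ((m : ℕ) : Eb) ≠ 0 := by
    rw [← map_natCast ((algebraMap (RatFunc (Kappa A)) Eb).comp RatFunc.C)]
    exact (_root_.map_ne_zero _).mpr hmA
  have hmap : Φ.map M.red = X ^ m - C (G ^ m) := by
    rw [hΦ, Polynomial.map_sub, Polynomial.map_pow, map_X, map_C, hred]
  have hsep : (Φ.map M.red).Separable := by
    rw [hmap]; exact separable_X_pow_sub_C _ hmb (pow_ne_zero _ hG)
  let M2 := adjoinModel hb1 hΦm hΦd hroot hsep
  -- no branching
  have hram : ∀ Q : Place L (AdjoinRoot P), Q.ramificationIndex E = 1 := fun Q => by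
    refine ramificationIndex_eq_one_of_root pb hw0 ?_ ?_ (Place.mem_fiber.mpr (rfl : Q.restrict E = _))
    · rw [hdim]; exact hU
    · rw [hdim]; exact hdiv _
  have hord : ∀ (Q : Place L (AdjoinRoot P)) (f : E),
      Q.ord (algebraMap E (AdjoinRoot P) f) = (Q.restrict E).ord f := fun Q f => by
    rw [Q.ord_restrict, hram, Nat.cast_one, one_mul]
  set x' : AdjoinRoot P := algebraMap E (AdjoinRoot P) x
  have hsub : ∀ a : L, x' - algebraMap L (AdjoinRoot P) a =
      algebraMap E (AdjoinRoot P) (x - algebraMap L E a) := fun a => by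
    rw [map_sub, ← IsScalarTower.algebraMap_apply]
  have : Nontrivial (AdjoinRoot (Φ.map M.red)) := AdjoinRoot.nontrivial _ (by
    rw [degree_eq_natDegree (hΦm.map M.red).ne_zero, hΦm.natDegree_map, hΦd]
    exact_mod_cast hm.ne_zero)
  have hidem : ∀ e : AdjoinRoot (Φ.map M.red), IsIdempotentElem e → e = 0 ∨ e = 1 := fun e he =>
    idem_eq_zero_or_one_of_ord M2 harch (x := x')
      (by rw [IsScalarTower.algebraMap_apply (RatFunc L) E (AdjoinRoot P), hx]) hN
      (fun Q hQ => by rw [hord] at hQ ⊢; exact h0 _ hQ)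
      (fun Q hQ => by rw [hsub, hord] at hQ ⊢; exact h1728 _ hQ)
      (fun a ha ha' Q hQ => by rw [hsub, hord] at hQ ⊢; exact hgen a ha ha' _ hQ)
      (fun Q hQ => by rw [hord] at hQ ⊢; exact hpole _ hQ) he
  have : Module.Finite (RatFunc (Kappa A)) (AdjoinRoot (Φ.map M.red)) := Module.Finite.of_basis M2.bb
  have : IsArtinianRing (AdjoinRoot (Φ.map M.red)) := IsArtinianRing.of_finite (RatFunc (Kappa A)) _
  have : IsReduced (AdjoinRoot (Φ.map M.red)) := isReduced_of_discr_ne_zero M2.bb M2.disc_ne
  have hfld : IsField (AdjoinRoot (Φ.map M.red)) := isField_of_idem hidem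
  have hirr' : Irreducible (Φ.map M.red) := by
    refine (Ideal.span_singleton_prime (hΦm.map M.red).ne_zero).mp ?_ |>.irreducible
    exact (Ideal.Quotient.maximal_of_isField _ hfld).isPrime
  have h1 : Φ.map M.red |>.IsRoot G := by rw [hmap]; simp [IsRoot]
  have h2 := degree_eq_one_of_irreducible_of_root hirr' h1
  rw [degree_eq_natDegree (hΦm.map M.red).ne_zero, hΦm.natDegree_map, hΦd] at h2
  exact hm.one_lt.ne' (by exact_mod_cast h2)

end Fermat.Agent.DeligneSerre
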