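import Fermat.Agent.DeligneSerre.Geom.RedBase
import Fermat.Agent.DeligneSerre.Geom.RedKummer
import Fermat.Agent.DeligneSerre.Geom.RedFrac
import Fermat.Agent.DeligneSerre.Geom.RedBasis
import Fermat.Agent.EichlerShimura.GlobalRed

/-!
# The Gauss model of the field of `±Γ₁(M)` and its reduction as a field of series
-/

set_option autoImplicit false
set_option linter.unusedSectionVars false
set_option maxHeartbeats 1000000
set_option synthInstance.maxHeartbeats 400000

noncomputable section

open scoped Classical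
open Polynomial IsLocalRing ModularCurve AlgebraicCurve

namespace Fermat.Agent.DeligneSerre.Curve

open Fermat.Agent.EichlerShimura Fermat.Agent.FF
open Fermat.Agent.RedTorsion (serInt serRed ratAlgebra transcendental_jF sint sred evalA)

local notation "Qb" => AlgebraicClosure ℚ

variable (M : ℕ) [NeZero M] [GoodLevel M]

/-- `K(j)` in the field over `ℚ̄`. -/
@[reducible] def algF1 : Algebra (RatFunc Qb) (F1Q M) :=
  ratAlgebra (transcendental_jBase1 M Qb)

/-- The field of `Γ₀(M)` in that of `±Γ₁(M)`. -/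
@[reducible] def algIncl : Algebra (F0Q M) (F1Q M) :=
  (IntermediateField.inclusion (F0Q_le M)).toRingHom.toAlgebra

variable {M}

theorem coe_ratLine1 (f : RatFunc Qb) :
    ((RedTorsion.ratLine (transcendental_jBase1 M Qb) f : F1Q M) : LaurentSeries Qb) =
      RedTorsion.ratLine (RedTorsion.transcendental_jqModC Qb) f := by
  rw [RedTorsion.ratLine_eq_div, RedTorsion.ratLine_eq_div, IntermediateField.coe_div]
  congr 1 <;> exact (aeval_algHom_apply (F1Q M).val (jBase1 M Qb) _).symm

theorem isScalarTower_incl :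
    letI := ratAlgebra (transcendental_jF (F := F0Q M) rfl)
    letI := algF1 M
    letI := algIncl M
    IsScalarTower (RatFunc Qb) (F0Q M) (F1Q M) :=
  letI := ratAlgebra (transcendental_jF (F := F0Q M) rfl)
  letI := algF1 M
  letI := algIncl M
  IsScalarTower.of_algebraMap_eq fun f =>
    Subtype.ext ((coe_ratLine1 f).trans (RedTorsion.coe_ratLine (F := F0Q M) rfl f).symm)

variable (M) in
/-- The generator. -/
def u1 : F1Q M := ⟨uK Qb 1, uK_mem_baseChange Qb 1⟩

/-- The powers of `u₁` are a basis over the field of `Γ₀(M)`. -/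
theorem exists_basis_u1 :
    letI := algIncl M
    ∃ b : Module.Basis (Fin (Fintype.card (Idx M))) (F0Q M) (F1Q M),
      ∀ i, b i = u1 M ^ (i : ℕ) := by
  set n := Fintype.card (Idx M)
  have hdm : (diaPolyQ M).Monic := monic_prod_of_monic _ _ fun q _ => monic_X_sub_C _
  set Φ : (LaurentSeries Qb)[X] := (diaPolyQ M).map (coeffEmb Qb)
  have hΦd : Φ.natDegree = n := by
    rw [hdm.natDegree_map, diaPolyQ, natDegree_prod_of_monic _ _ fun q _ => monic_X_sub_C _]
    simp [n]
  have hl : Φ ∈ Polynomial.lifts (algebraMap (F0Q M) (LaurentSeries Qb)) := by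
    rw [Polynomial.lifts_iff_coeff_lifts]
    refine fun k => ⟨⟨Φ.coeff k, ?_⟩, rfl⟩
    rw [coeff_map, F0Q, ← ModFun.laurentBaseChange_eq_fullC]
    exact coeffEmb_mem_laurentBaseChange Qb (coeff_diaPolyQ_mem k)
  obtain ⟨R, hR, hRd, hRm⟩ := Polynomial.lifts_and_natDegree_eq_and_monic hl (hdm.map _)
  refine exists_powers_basis (F0Q_le M) (u1 M) Fintype.card_pos hRm (hRd.trans hΦd) ?_
    (F1Q_le_adjoin_uK_one M) fun P hP hP0 => ?_
  · rw [aeval_def, ← eval_map, hR]; exact eval_diaPolyQ 1
  · have h1 := card_le_natDegree (M := M) (P := P.map (algebraMap (F0Q M) (LaurentSeries Qb)))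
      ((Polynomial.map_ne_zero_iff (RingHom.injective _)).mpr hP)
      (fun k => by rw [coeff_map]; exact (P.coeff k).2) (by rw [eval_map, ← aeval_def]; exact hP0)
    rwa [natDegree_map] at h1

variable {A : ValuationSubring Qb}

/-- What the model gives: a field of series `π` receiving the reductions, integrality of series,
fractions, and the connectedness criterion for `m`-th roots. -/
def IsGaussField (M : ℕ) [NeZero M] [GoodLevel M] (A : ValuationSubring Qb) : Prop :=
  ∃ (Eb : Type) (_ : Field Eb) (π : Eb →+* LaurentSeries (ResidueField A))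
    (S : Subring (F1Q M)) (red : S →+* Eb),
    (∀ z : S, ∃ d p : serInt A, (d : LaurentSeries Qb) ∈ F1Q M ∧ (p : LaurentSeries Qb) ∈ F1Q M ∧
      serRed A d ≠ 0 ∧ ((z : F1Q M) : LaurentSeries Qb) * d = p ∧
      π (red z) * serRed A d = serRed A p) ∧
    (∀ f : F1Q M, f ≠ 0 → ∃ c : Qb, c ≠ 0 ∧ ∃ z : S,
      f = algebraMap Qb (F1Q M) c * (z : F1Q M) ∧ red z ≠ 0) ∧
    (∀ c : Qb, ∀ hc : c ∈ A, ∃ h : algebraMap Qb (F1Q M) c ∈ S,
      π (red ⟨_, h⟩) = algebraMap (ResidueField A) _ (residue A ⟨c, hc⟩)) ∧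
    ∀ (m : ℕ), m.Prime → (m : ResidueField A) ≠ 0 → ∀ (w : S) (G : Eb), G ≠ 0 → red w = G ^ m →
      (∀ P : Place Qb (F1Q M), (m : ℤ) ∣ P.ord (w : F1Q M)) → ∃ r : F1Q M, r ^ m = (w : F1Q M)

theorem isGaussField [IsAlgClosed (ResidueField A)] (hMA : (M : ResidueField A) ≠ 0) :
    IsGaussField M A := by
  let _ := ratAlgebra (transcendental_jF (F := F0Q M) rfl)
  let _ := ratAlgebra (transcendental_jF (K := ResidueField A) (N := M)
    (F := modularFunctionFieldFullC (ResidueField A) M) rfl)
  let _ := algF1 M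
  let _ := algIncl M
  have := isScalarTower_incl (M := M)
  have : IsScalarTower Qb (RatFunc Qb) (F1Q M) :=
    EichlerShimura.isScalarTower_ratAlgebra (transcendental_jBase1 M Qb)
  obtain ⟨b1, hb1⟩ := exists_basis_u1 (M := M)
  obtain ⟨Q, hQm, hQd, hQL, hQr⟩ := exists_relation (M := M) (A := A) hMA
  set M0 := RedTorsion.model (F := F0Q M) (A := A) rfl hMA
  have := isSeparable_of_discr_ne_zero M0.bb M0.disc_ne
  let σ : sint A (F0Q M) →+* M0.S :=
    (sint A (F0Q M)).subtype.codRestrict M0.S (RedTorsion.mem_model_S rfl hMA)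
  have hσ : ∀ y, (M0.red (σ y) : LaurentSeries (ResidueField A)) = sred y := fun y => by
    rw [← RedTorsion.coe_redF rfl hMA, ← RedTorsion.model_red rfl hMA]; rfl
  set Φ := Q.map σ
  have hΦm : Φ.Monic := hQm.map σ
  have : Nontrivial M0.S := M0.red.domain_nontrivial
  have hΦd : Φ.natDegree = Fintype.card (Idx M) := by rw [hQm.natDegree_map, hQd]
  have hroot : evU M0 (u1 M) Φ = 0 := by
    refine Subtype.ext ?_
    show (F1Q M).val.toRingHom (eval₂ _ (u1 M) (Q.map σ)) = _
    rw [eval₂_map, hom_eval₂]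
    refine Eq.trans ?_ (eval_diaPolyQ (M := M) (L := Qb) 1)
    rw [← hQL, eval_map]
    rfl
  have hΦmap : (Φ.map M0.red).map (modularFunctionFieldFullC (ResidueField A) M).val.toRingHom
      = ∏ q : Idx M, (X - C (uK (M := M) (ResidueField A) q.out)) := by
    rw [← hQr, Polynomial.map_map, Polynomial.map_map]
    congr 1
    exact RingHom.ext hσ
  have hinj : Function.Injective fun q : Idx M => uK (ResidueField A) q.out := fun q q' h =>
    (idx_eq_of_eq_or_neg (uK_eq_iff hMA h)).symm
  have hsep : (Φ.map M0.red).Separable := by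
    rw [← separable_map ((modularFunctionFieldFullC (ResidueField A) M).val.toRingHom), hΦmap,
      separable_prod_X_sub_C_iff]
    exact hinj
  set M1 := adjoinModel hb1 hΦm hΦd hroot hsep
  have : FiniteDimensional (RatFunc Qb) (F1Q M) := Module.Finite.of_basis M1.b
  set x := jBase1 M Qb
  have hx : algebraMap (RatFunc Qb) (F1Q M) RatFunc.X = x := RedTorsion.ratLine_X _
  have harch := isArchVal_algebraicClosure A
  have h0 : ∀ P : Place Qb (F1Q M), 0 < P.ord x → P.ord x ∣ 3 := fun P hP => by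
    simpa using ord_jBase1_sub_dvd P 0 (by simpa using hP)
  have h1728 : ∀ P : Place Qb (F1Q M), 0 < P.ord (x - algebraMap Qb _ 1728) →
      P.ord (x - algebraMap Qb _ 1728) ∣ 2 := fun P hP => by
    simpa using ord_jBase1_sub_dvd P 1728 hP
  have hgen : ∀ a : Qb, a ≠ 0 → a ≠ 1728 → ∀ P : Place Qb (F1Q M),
      0 < P.ord (x - algebraMap Qb _ a) → P.ord (x - algebraMap Qb _ a) ∣ 1 :=
    fun a ha ha' P hP => by simpa [ha, ha'] using ord_jBase1_sub_dvd P a hP
  -- the reduction is a field
  have : Nontrivial (AdjoinRoot (Φ.map M0.red)) := AdjoinRoot.nontrivial _ (by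
    rw [degree_eq_natDegree (hΦm.map M0.red).ne_zero, hΦm.natDegree_map, hΦd]
    exact_mod_cast Fintype.card_ne_zero)
  have : Module.Finite (RatFunc (Kappa A)) (AdjoinRoot (Φ.map M0.red)) :=
    Module.Finite.of_basis M1.bb
  have : IsArtinianRing (AdjoinRoot (Φ.map M0.red)) :=
    IsArtinianRing.of_finite (RatFunc (Kappa A)) _
  have : IsReduced (AdjoinRoot (Φ.map M0.red)) := isReduced_of_discr_ne_zero M1.bb M1.disc_ne
  have hfld : IsField (AdjoinRoot (Φ.map M0.red)) := isField_of_idem fun e he =>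
    idem_eq_zero_or_one_of_ord M1 harch hx (NeZero.ne M) h0 h1728 hgen
      (fun P hP => ord_jBase1_dvd P hP) he
  have hirr : Irreducible (Φ.map M0.red) :=
    ((Ideal.span_singleton_prime (hΦm.map M0.red).ne_zero).mp
      (Ideal.Quotient.maximal_of_isField _ hfld).isPrime).irreducible
  have := Fact.mk hirr
  have hπ : (Φ.map M0.red).eval₂ (modularFunctionFieldFullC (ResidueField A) M).val.toRingHom
      (uK (M := M) (ResidueField A) 1) = 0 := by
        rw [← eval_map, hΦmap, eval_prod]
        refine Finset.prod_eq_zero (Finset.mem_univ (QuotientGroup.mk 1 : Idx M)) ?_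
        rw [eval_sub, eval_X, eval_C, sub_eq_zero]
        rcases out_mk_eq (M := M) 1 with h | h <;> rw [h]
        -- `uK` is even in every characteristic prime to `M`
        obtain ⟨hu, hur⟩ := exists_uK_int (A := A) hMA (1 : (ZMod M)ˣ)
        obtain ⟨hu', hur'⟩ := exists_uK_int (A := A) hMA (-1 : (ZMod M)ˣ)
        rw [← hur, ← hur']
        exact congrArg _ (Subtype.ext (uK_neg Qb 1).symm)
  let π : AdjoinRoot (Φ.map M0.red) →+* LaurentSeries (ResidueField A) :=
    AdjoinRoot.lift _ _ hπ
  -- series of the basis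
  obtain ⟨hu, hur⟩ := exists_uK_int (A := A) hMA (1 : (ZMod M)ˣ)
  have hl : ∀ q : A[X],
      (F1Q M).val.toRingHom (algebraMap (RatFunc Qb) (F1Q M) (ratIncl A q)) = evalA A q ∧
      π (algebraMap (RatFunc (Kappa A)) (AdjoinRoot (Φ.map M0.red)) (ratBar A q))
        = serRed A (evalA A q) := fun q => by
    constructor
    · refine (coe_ratLine1 _).trans ?_
      rw [RedTorsion.coe_evalA]
      exact RedTorsion.ratLine_algebraMap _ _
    · rw [IsScalarTower.algebraMap_apply (RatFunc (Kappa A))
        (modularFunctionFieldFullC (ResidueField A) M) (AdjoinRoot (Φ.map M0.red)),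
        RedTorsion.serRed_evalA]
      refine (AdjoinRoot.lift_of _).trans ?_
      refine (RedTorsion.coe_ratLine (F := modularFunctionFieldFullC (ResidueField A) M) rfl
        _).trans ?_
      exact RedTorsion.ratLine_algebraMap _ _
  have hb0 : ∀ i, ∃ s : serInt A,
      (F1Q M).val.toRingHom (algebraMap (F0Q M) (F1Q M) (M0.b i)) = s ∧
      (modularFunctionFieldFullC (ResidueField A) M).val.toRingHom (M0.bb i) = serRed A s :=
    fun i => ⟨RedTorsion.toSerInt ⟨_, RedTorsion.basisInt_mem rfl hMA i⟩, rfl,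
      ((congrArg Subtype.val (RedTorsion.redF_basisInt rfl hMA i)).symm.trans
        (RedTorsion.coe_redF rfl hMA _))⟩
  have hb := exists_series_adjoin hb1 hΦm hΦd hroot hsep (F1Q M).val.toRingHom hπ
    (u := ⟨_, hu⟩) rfl hur hb0
  refine ⟨AdjoinRoot (Φ.map M0.red), inferInstance, π, M1.S, M1.red, fun z => ?_,
    fun f hf => ?_, fun c hc => ?_, fun m hm hmA w G hG hred hdiv => ?_⟩
  · obtain ⟨d, q, d', q', hd', hq', hd, hzd, hr⟩ :=
      exists_frac_series M1 (F1Q M).val.toRingHom π hl hb z
    refine ⟨d, q, ?_, ?_, hd, hzd, hr⟩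
    · rw [hd']; exact d'.2
    · rw [hq']; exact q'.2
  · obtain ⟨c, hc, z, hfz, hz⟩ := M1.exists_scale' hf
    exact ⟨c, hc, z, by rw [hfz, ← RatFunc.algebraMap_eq_C, ← IsScalarTower.algebraMap_apply], hz⟩
  · exact exists_mem_red_const M1 π (fun q => (hl q).2) hc
  · exact exists_root_of_red_pow M1 harch hx (NeZero.ne M) h0 h1728 hgen
      (fun P hP => ord_jBase1_dvd P hP) hm hmA w hG hred hdiv

end Fermat.Agent.DeligneSerre.Curve
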