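import Fermat.Agent.DeligneSerre.Geom.RedModel

/-!
# The reduction property of the field of `±Γ₁(M)`
-/

set_option autoImplicit false
set_option linter.unusedSectionVars false

noncomputable section

open scoped Classical
open Polynomial IsLocalRing ModularCurve AlgebraicCurve

namespace Fermat.Agent.DeligneSerre.Curve

open Fermat.Agent.FF
open Fermat.Agent.RedTorsion (serInt serRed)

local notation "Qb" => AlgebraicClosure ℚ

variable {M : ℕ} [NeZero M] [GoodLevel M] {A : ValuationSubring Qb}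

theorem serRed_algebraMap_mul {c : Qb} (hc : c ∈ A) (a b : serInt A)
    (h : (a : LaurentSeries Qb) = algebraMap Qb _ c * (b : LaurentSeries Qb)) :
    serRed A a = algebraMap _ _ (residue A ⟨c, hc⟩) * serRed A b := by
  rw [← RedTorsion.serRed_algebraMap hc, ← map_mul]
  exact congrArg _ (Subtype.ext h)

/-- For every good prime the reduction of the Kummer groups is injective and all functions are
constant multiples of primitive fractions. -/
theorem reductionProperty (M : ℕ) [NeZero M] [GoodLevel M] : ReductionProperty M := by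
  intro p hp hpM A hA
  have := Arith.residueField_isAlgClosed A
  have := Arith.residueField_charP hA hp
  have hcast : ∀ n : ℕ, ¬ p ∣ n → (n : ResidueField A) ≠ 0 := fun n hn => by
    rwa [Ne, CharP.cast_eq_zero_iff (ResidueField A) p]
  obtain ⟨Eb, _, π, S, red, hfrac, hscale, hconst, hkum⟩ := isGaussField (hcast M hpM)
  -- integral series of the field lie in the lattice, with the expected reduction
  have hint : ∀ (y : serInt A) (hy : (y : LaurentSeries Qb) ∈ F1Q M),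
      ∃ h : (⟨_, hy⟩ : F1Q M) ∈ S, π (red ⟨_, h⟩) = serRed A y := by
    intro y hy
    rcases eq_or_ne (⟨_, hy⟩ : F1Q M) 0 with h0 | h0
    · have hy0 : y = 0 := Subtype.ext
        (show (y : LaurentSeries Qb) = 0 from congrArg Subtype.val h0)
      refine ⟨h0 ▸ zero_mem S, ?_⟩
      rw [show (⟨_, h0 ▸ zero_mem S⟩ : S) = 0 from Subtype.ext h0, map_zero, map_zero, hy0, map_zero]
    obtain ⟨c, hc, z, hyz, hz⟩ := hscale _ h0
    obtain ⟨d, q, -, -, hd, hzd, hq⟩ := hfrac z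
    have hyd : (y : LaurentSeries Qb) * d = algebraMap Qb _ c * (q : LaurentSeries Qb) := by
      rw [← hzd, ← mul_assoc]
      exact congrArg (· * (d : LaurentSeries Qb)) (congrArg Subtype.val hyz)
    have hcA : c ∈ A := by
      by_contra hcA
      have hci : c⁻¹ ∈ A := (A.mem_or_inv_mem c).resolve_left hcA
      have h1 := serRed_algebraMap_mul hci q (y * d) (by
        rw [Subring.coe_mul, hyd, ← mul_assoc, ← map_mul, inv_mul_cancel₀ hc, map_one, one_mul])
      rw [(EichlerShimura.residue_eq_zero_iff_inv (x := (⟨c⁻¹, hci⟩ : A)) (inv_ne_zero hc)).mpr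
        (by simpa using hcA), map_zero, zero_mul, ← hq] at h1
      exact mul_ne_zero ((_root_.map_ne_zero π).mpr hz) hd h1
    obtain ⟨hcS, hcr⟩ := hconst c hcA
    refine ⟨hyz ▸ mul_mem hcS z.2, mul_right_cancel₀ hd ?_⟩
    rw [← map_mul (serRed A), serRed_algebraMap_mul hcA (y * d) q (by rw [Subring.coe_mul, hyd]),
      ← hq, ← mul_assoc, ← hcr, ← map_mul, ← map_mul]
    exact congrArg (fun t => π (red t) * _) (Subtype.ext hyz)
  refine ⟨fun f hf => ?_, fun m hm hmp f y d hyd hg => ?_⟩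
  · obtain ⟨c, hc, z, hfz, hz⟩ := hscale f hf
    obtain ⟨d, q, hdF, hqF, hd, hzd, hq⟩ := hfrac z
    refine ⟨q, d, hqF, hdF, hq ▸ mul_ne_zero ((_root_.map_ne_zero π).mpr hz) hd, hd, c, hc, ?_⟩
    rw [← hzd, ← mul_assoc]
    exact congrArg (· * (d : LaurentSeries Qb)) (congrArg Subtype.val hfz)
  obtain ⟨hy, hd, hy0, hd0, c, hc, hfd⟩ := hyd
  obtain ⟨g, hgmem, hg⟩ := hg
  obtain ⟨hyS, hyr⟩ := hint y hy
  obtain ⟨hdS, hdr⟩ := hint d hd
  have hsub : redField1 M A ≤ π.fieldRange := by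
    rw [redField1, Subfield.closure_le]
    rintro _ ⟨t, ht, rfl⟩
    obtain ⟨h, hr⟩ := hint t ht
    exact ⟨_, hr⟩
  obtain ⟨g₀, rfl⟩ := hsub hgmem
  set Y : F1Q M := ⟨_, hy⟩
  set D : F1Q M := ⟨_, hd⟩
  obtain ⟨k, rfl⟩ : ∃ k, m = k + 1 := ⟨m - 1, by have := hm.one_lt; omega⟩
  set w : S := ⟨Y, hyS⟩ * ⟨D, hdS⟩ ^ k with hw
  have hYred : red ⟨Y, hyS⟩ = red ⟨D, hdS⟩ * g₀ ^ (k + 1) := π.injective (by
    rw [map_mul, map_pow, hyr, hdr, hg])
  have hG : red ⟨D, hdS⟩ * g₀ ≠ 0 := by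
    refine mul_ne_zero (fun h => hd0 (by rw [← hdr, h, map_zero])) fun h => hy0 ?_
    rw [← hyr, hYred, h, zero_pow (Nat.succ_ne_zero k), mul_zero, map_zero]
  have hred : red w = (red ⟨D, hdS⟩ * g₀) ^ (k + 1) := by
    rw [hw, map_mul, map_pow, hYred]; ring
  set F : F1Q M := ((f : (F1Q M)ˣ) : F1Q M)
  have hFD : F * D = algebraMap Qb (F1Q M) c * Y := Subtype.ext hfd
  have hF0 : F ≠ 0 := Units.ne_zero _
  have hD0 : D ≠ 0 := fun h => hd0 (by
    rw [show d = 0 from Subtype.ext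
      (show (d : LaurentSeries Qb) = 0 from congrArg Subtype.val h), map_zero])
  have hwF : (w : F1Q M) = algebraMap Qb (F1Q M) c⁻¹ * (F * D ^ (k + 1)) := by
    have h1 : F * D ^ (k + 1) = algebraMap Qb (F1Q M) c * (Y * D ^ k) := by
      rw [pow_succ', ← mul_assoc, hFD, mul_assoc]
    rw [h1, ← mul_assoc, ← map_mul, inv_mul_cancel₀ hc, map_one, one_mul]
    rfl
  have hdiv : ∀ P : Place Qb (F1Q M), ((k + 1 : ℕ) : ℤ) ∣ P.ord (w : F1Q M) := fun P => by
    rw [hwF, P.ord_mul ((_root_.map_ne_zero _).mpr (inv_ne_zero hc)) (mul_ne_zero hF0 (pow_ne_zero _ hD0)),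
      ord_algebraMap, zero_add, P.ord_mul hF0 (pow_ne_zero _ hD0), ord_pow]
    exact dvd_add (f.2 P) (dvd_mul_right _ _)
  obtain ⟨r, hr⟩ := hkum (k + 1) hm
    (hcast _ fun h => hmp ((Nat.prime_dvd_prime_iff_eq hp hm).mp h).symm) w _ hG hred hdiv
  obtain ⟨γ, hγ⟩ := IsAlgClosed.exists_pow_nat_eq c k.succ_pos
  have hpow : (algebraMap Qb (F1Q M) γ * r / D) ^ (k + 1) = F := by
    rw [div_pow, mul_pow, ← map_pow, hγ, hr, hwF, ← mul_assoc, ← map_mul, mul_inv_cancel₀ hc,
      map_one, one_mul, mul_div_assoc, div_self (pow_ne_zero _ hD0), mul_one]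
  refine (JacTorsion.mem_powGrp Qb (F1Q M)).mpr ⟨Units.mk0 (algebraMap Qb (F1Q M) γ * r / D) fun h => hF0 ?_,
    Units.ext ?_⟩
  · rw [← hpow, h, zero_pow (Nat.succ_ne_zero k)]
  · rw [Units.val_pow_eq_pow_val, Units.val_mk0, hpow]

end Fermat.Agent.DeligneSerre.Curve
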